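/-
S43 (row 37), PROJECT R, block `LG1`, brick `C1` (twin of `S34` at `X₁(N)`), file `Euler/PlacesTw`
(helper23): the ABSTRACT two-map twin of main's `S34/Euler/Places.{hJ_of_subalgebra,
exists_nodes_places}`.

**The affine sandwich in the language of places, with two different graphs.**

`κ / k` a function field all of whose places have degree one, `φ ψ : κ →ₐ[k] κ` two endomorphisms
with place maps `Fr`, `Frψ` and the value rules `(φ g)(v) = g(Fr v)`, `(ψ g)(v) = g(Frψ v)` (at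
`X₁(N; r)` in characteristic `r`: `φ` the Frobenius pull-back, `ψ = φ ∘ d̄` with `d̄` the reduced
diamond).  For a subring `B ≤ κ × κ` containing the pairs `(g, ψ g)` and `(φ g, g)`
(`g ∈ regOff P`), and a finite set `Z` of places off `P` such that every `w ∈ regOff P` vanishing on
`Z` lies in the ideal generated by the `g - ψ (φ g)`, there is a subset `S ⊆ Z` (the **nodes**) with

  `(h₁, h₂) ∈ B ↔ ∀ b ∈ S, h₁ (Frψ b) = h₂ b`      for `h₁, h₂` regular off `P`.

Main's statement is the case `ψ = φ`.  The abstract sandwich `S34/Sandwich.IsSandwich φ ψ B` is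
already a two-map statement and is imported as it is.
-/
import Mathlib
import Fermat.Agent.S34.Euler.Places

set_option autoImplicit false

noncomputable section

namespace Fermat.Agent.S43.LG1.C1.Euler.PlacesTw

open AlgebraicCurve Fermat.Agent.S34.Euler.Value Fermat.Agent.S34.Sandwich
  Fermat.Agent.S34.Euler.Places

variable {k : Type*} [Field k] {κ : Type*} [Field κ] [Algebra k κ]

/-- Transport of the radical-ideal hypothesis from any presentation `(R, φR, ψR)` of the ring of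
functions regular off `P`. -/
theorem hJ_of_subalgebra2 {φ ψ : κ →ₐ[k] κ} {Fr Frψ : Place k κ → Place k κ}
    (hval : ValueRule φ Fr) (hvalψ : ValueRule ψ Frψ) (hdeg : ∀ v : Place k κ, v.deg = 1)
    {P : Set (Place k κ)} (hFrP : ∀ v, v ∉ P → Fr v ∉ P) (hFrψP : ∀ v, v ∉ P → Frψ v ∉ P)
    (Z : Finset (Place k κ))
    (R : Subalgebra k κ) (hR : ∀ g, g ∈ R ↔ g ∈ regOff P) (φR ψR : R →+* R)
    (hφR : ∀ g : R, ((φR g : R) : κ) = φ (g : κ)) (hψR : ∀ g : R, ((ψR g : R) : κ) = ψ (g : κ))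
    (hJ : ∀ w : R, (∀ b ∈ Z, b.adicValuation (w : κ) < 1) →
      w ∈ Ideal.span (Set.range fun g : R => g - ψR (φR g))) :
    ∀ w : regOff P, (∀ b ∈ Z, b.adicValuation (w : κ) < 1) →
      w ∈ Ideal.span (Set.range fun g : regOff P =>
        g - phiR hvalψ hdeg hFrψP (phiR hval hdeg hFrP g)) := by
  obtain rfl : R = regOff P := SetLike.ext hR
  obtain rfl : φR = phiR hval hdeg hFrP := RingHom.ext fun g => Subtype.ext (hφR g)
  obtain rfl : ψR = phiR hvalψ hdeg hFrψP := RingHom.ext fun g => Subtype.ext (hψR g)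
  exact hJ

/-- **The affine sandwich in the language of places, two-map form.** -/
theorem exists_nodes_places2 {φ ψ : κ →ₐ[k] κ} {Fr Frψ : Place k κ → Place k κ}
    (hval : ValueRule φ Fr) (hvalψ : ValueRule ψ Frψ) (hdeg : ∀ v : Place k κ, v.deg = 1)
    {P : Set (Place k κ)} (hFrP : ∀ v, v ∉ P → Fr v ∉ P) (hFrψP : ∀ v, v ∉ P → Frψ v ∉ P)
    (B : Subring (κ × κ))
    (hB₁ : ∀ g ∈ regOff P, (g, ψ g) ∈ B) (hB₂ : ∀ g ∈ regOff P, (φ g, g) ∈ B)
    (Z : Finset (Place k κ)) (hZP : ∀ b ∈ Z, b ∉ P)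
    (hJ : ∀ w : regOff P, (∀ b ∈ Z, b.adicValuation (w : κ) < 1) →
      w ∈ Ideal.span (Set.range fun g : regOff P =>
        g - phiR hvalψ hdeg hFrψP (phiR hval hdeg hFrP g))) :
    ∃ S ⊆ Z, ∀ h₁ h₂ : κ, h₁ ∈ regOff P → h₂ ∈ regOff P →
      ((h₁, h₂) ∈ B ↔ ∀ b ∈ S, ∃ c : k, HasValue (Frψ b) h₁ c ∧ HasValue b h₂ c) := by
  classical
  set φR := phiR hval hdeg hFrP with hφR
  set ψR := phiR hvalψ hdeg hFrψP with hψR
  have hsw : IsSandwich ψR φR (resB P B) :=
    ⟨fun g => hB₁ g g.2, fun g => hB₂ g g.2⟩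
  -- the finite set of maximal ideals
  set Z' : Finset (Ideal (regOff P)) :=
    Z.attach.image fun b : {x // x ∈ Z} => maxIdeal b.1 (hZP b.1 b.2) with hZ'
  have hmax : ∀ m ∈ Z', m.IsMaximal := by
    intro m hm
    obtain ⟨b, -, rfl⟩ := Finset.mem_image.mp hm
    exact maxIdeal_isMaximal _ _ (hdeg _)
  have hJ' : Z'.inf id ≤ Ideal.span (Set.range fun g : regOff P => g - ψR (φR g)) := by
    intro w hw
    apply hJ w
    intro b hb
    have hmem : maxIdeal b (hZP b hb) ∈ Z' :=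
      Finset.mem_image.mpr ⟨⟨b, hb⟩, Finset.mem_attach _ _, rfl⟩
    have := (Finset.inf_le hmem : Z'.inf id ≤ id (maxIdeal b (hZP b hb))) hw
    exact this
  obtain ⟨S', hS'Z, -, hdesc⟩ := exists_nodes hsw Z' hmax hJ'
  refine ⟨Z.filter fun b => ∃ hb : b ∈ Z, maxIdeal b (hZP b hb) ∈ S', Finset.filter_subset _ _,
    fun h₁ h₂ hh₁ hh₂ => ?_⟩
  have h1 := hdesc ⟨h₁, hh₁⟩ ⟨h₂, hh₂⟩
  rw [mem_resB] at h1
  rw [h1]
  -- translate the ideal conditions
  have hpt : ∀ b : Place k κ, b ∉ P →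
      (b.adicValuation (h₂ - ψ h₁) < 1 ↔ ∃ c : k, HasValue (Frψ b) h₁ c ∧ HasValue b h₂ c) := by
    intro b hb
    constructor
    · intro hlt
      obtain ⟨c, hc⟩ := exists_hasValue b (hdeg b) (hh₂ b hb)
      refine ⟨c, (hvalψ b h₁ c).mp ?_, hc⟩
      show b.adicValuation (ψ h₁ - algebraMap k κ c) < 1
      have : ψ h₁ - algebraMap k κ c = (h₂ - algebraMap k κ c) - (h₂ - ψ h₁) := by ring
      rw [this]
      exact lt_of_le_of_lt (Valuation.map_sub _ _ _) (max_lt hc hlt)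
    · rintro ⟨c, hc1, hc2⟩
      have hc1' := (hvalψ b h₁ c).mpr hc1
      have : h₂ - ψ h₁ = (h₂ - algebraMap k κ c) - (ψ h₁ - algebraMap k κ c) := by ring
      rw [this]
      exact lt_of_le_of_lt (Valuation.map_sub _ _ _) (max_lt hc2 hc1')
  constructor
  · intro hm b hb
    obtain ⟨hbZ, hbS'⟩ := (Finset.mem_filter.mp hb).2
    exact (hpt b (hZP b hbZ)).mp (hm _ hbS')
  · intro hm m hmS'
    obtain ⟨b, -, rfl⟩ := Finset.mem_image.mp (hS'Z hmS')
    have hbS : b.1 ∈ Z.filter fun b => ∃ hb : b ∈ Z, maxIdeal b (hZP b hb) ∈ S' :=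
      Finset.mem_filter.mpr ⟨b.2, b.2, hmS'⟩
    exact (hpt b.1 (hZP b.1 b.2)).mpr (hm b.1 hbS)

end Fermat.Agent.S43.LG1.C1.Euler.PlacesTw
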