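/-
S43 (row 37), PROJECT R, block `LG1`, brick `C1` (twin of `S34` at `X₁(N)`), file `Euler/ChartTw`
(helper23): the ABSTRACT two-map twin of main's `S34/Euler/Chart.genus_le_of_charts`.

**The two-chart bridge with two different graphs.**  Setting of `S34/Euler/Chart`: both components
of the special fibre are the same function field `κ / k`; now with TWO endomorphisms
`φ ψ : κ →ₐ[k] κ` with place maps `Fr`, `Frψ` (value rules); at `X₁(N; r)`: `φ` the Frobenius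
pull-back, `ψ = φ ∘ d̄`, `d̄` the reduced diamond.  The rings `Rbar0`, `Rbar1` of main contain the
graphs `(h, ψ h)` and `(φ h, h)` (`(LS0)`, `(LS1)`: `C1/Euler/ChartLiftTw.LS02`, `LS12`); the
radical-ideal statements are about the ideals generated by the `h - ψ (φ h)`.  Conclusion: a finite
set `S` of places (the **nodes**, `s₁ = Frψ b`, `s₂ = b`) with

  `g(FL) + 1 ≤ 2 g(κ) + #S`   and   `(h₁, h₂) ∈ Rbar0 ↔ ∀ b ∈ S, h₁ (Frψ b) = h₂ b`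

for `h₁, h₂` regular off `P₀`.  Main's theorem is the case `ψ = φ`.  `Rbar0`, `Rbar1`,
`cusp_of_witness` (stated for an arbitrary place map), `rr_le_regOff`, `inv_pow_mul_mem_regOff` are
imported from main as they are.
-/
import Mathlib
import Fermat.Agent.S34.Euler.Chart
import Fermat.Agent.S43.LG1.C1.Euler.PlacesTw

set_option autoImplicit false
set_option linter.unusedSectionVars false

noncomputable section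

namespace Fermat.Agent.S43.LG1.C1.Euler.ChartTw

open AlgebraicCurve Fermat.Agent.S18.NonSpecial Fermat.Agent.S37.Deuring.Core
  Fermat.Agent.S34.Euler.Value Fermat.Agent.S34.Euler.Glued Fermat.Agent.S34.Euler.RedPair
  Fermat.Agent.S34.Euler.Places Fermat.Agent.S34.Euler.Chart
  Fermat.Agent.S43.LG1.C1.Euler.PlacesTw

variable {L : Type*} [Field L] {k : Type*} [Field k]
variable {A : ValuationSubring L} {π : A →+* k}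
variable {FL : Type*} [Field FL] [Algebra L FL]
variable {κ : Type*} [Field κ] [Algebra k κ]
variable (G₁ G₂ : GaussDatum A π FL κ)

section Main

variable {g gκ : ℕ} (HL : RiemannHyp L FL g) (Hκ : RiemannHyp k κ gκ)
  {φ ψ : κ →ₐ[k] κ} {Fr Frψ : Place k κ → Place k κ} (hval : ValueRule φ Fr)
  (hvalψ : ValueRule ψ Frψ) (hFrψinj : Function.Injective Frψ)
  {x : FL} (hxO₁ : x ∈ G₁.O) (hxO₂ : x ∈ G₂.O) {D : Divisor L FL} (hxD : IsPoleDiv x D)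
  {E₁ E₂ : Divisor k κ}
  (hx₁ : IsPoleDiv (G₁.red ⟨x, hxO₁⟩) E₁) (hx₂ : IsPoleDiv (G₂.red ⟨x, hxO₂⟩) E₂)
  (hpos₁ : 0 < Divisor.degree E₁) (hpos₂ : 0 < Divisor.degree E₂)
  (hdeg : Divisor.degree D = Divisor.degree E₁ + Divisor.degree E₂)
  -- the poles `P₀` and the zeros `P₁` of `x̄`
  {P₀ P₁ : Set (Place k κ)}
  (hP₀₁ : ∀ v, 0 < E₁ v ↔ v ∈ P₀) (hP₀₂ : ∀ v, 0 < E₂ v ↔ v ∈ P₀)
  (hP₁₁ : ∀ v, 0 < v.ord (G₁.red ⟨x, hxO₁⟩) ↔ v ∈ P₁)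
  (hP₁₂ : ∀ v, 0 < v.ord (G₂.red ⟨x, hxO₂⟩) ↔ v ∈ P₁)
  (hFr₀ : ∀ v, v ∉ P₀ → Fr v ∉ P₀) (hFr₁ : ∀ v, v ∉ P₁ → Fr v ∉ P₁)
  (hFrψ₀ : ∀ v, v ∉ P₀ → Frψ v ∉ P₀) (hFrψ₁ : ∀ v, v ∉ P₁ → Frψ v ∉ P₁)

include HL Hκ hval hvalψ hFrψinj hxD hx₁ hx₂ hpos₁ hpos₂ hdeg hP₀₁ hP₀₂ hP₁₁ hP₁₂ hFr₀ hFr₁
  hFrψ₀ hFrψ₁ in
/-- **(NC) from the two charts, two-map form.** -/
theorem genus_le_of_charts2
    -- chart 0
    (LS0 : ∀ h ∈ regOff P₀, (h, ψ h) ∈ Rbar0 G₁ G₂ hxD.nonneg ∧ (φ h, h) ∈ Rbar0 G₁ G₂ hxD.nonneg)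
    (Z₀ : Finset (Place k κ)) (hZ₀ : ∀ b ∈ Z₀, b ∉ P₀)
    (hJ₀ : ∀ w : regOff P₀, (∀ b ∈ Z₀, b.adicValuation (w : κ) < 1) →
      w ∈ Ideal.span (Set.range fun h : regOff P₀ =>
        h - phiR hvalψ Hκ.deg_one hFrψ₀ (phiR hval Hκ.deg_one hFr₀ h)))
    -- chart 1
    (LS1 : ∀ h ∈ regOff P₁, (h, ψ h) ∈ Rbar1 G₁ G₂ hxO₁ hxO₂ hxD ∧
      (φ h, h) ∈ Rbar1 G₁ G₂ hxO₁ hxO₂ hxD)
    (Z₁ : Finset (Place k κ)) (hZ₁ : ∀ b ∈ Z₁, b ∉ P₁)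
    (hJ₁ : ∀ w : regOff P₁, (∀ b ∈ Z₁, b.adicValuation (w : κ) < 1) →
      w ∈ Ideal.span (Set.range fun h : regOff P₁ =>
        h - phiR hvalψ Hκ.deg_one hFrψ₁ (phiR hval Hκ.deg_one hFr₁ h)))
    (CUSP : ∀ b ∈ Z₁, b ∈ P₀ → ∃ p ∈ Rbar1 G₁ G₂ hxO₁ hxO₂ hxD, p.1 ∈ regOff P₁ ∧
      p.2 ∈ regOff P₁ ∧ ¬ ∃ c : k, HasValue (Frψ b) p.1 c ∧ HasValue b p.2 c) :
    ∃ S ⊆ Z₀, (g : ℤ) + 1 ≤ gκ + gκ + S.card ∧
      ∀ h₁ h₂ : κ, h₁ ∈ regOff P₀ → h₂ ∈ regOff P₀ →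
        ((h₁, h₂) ∈ Rbar0 G₁ G₂ hxD.nonneg ↔
          ∀ b ∈ S, ∃ c : k, HasValue (Frψ b) h₁ c ∧ HasValue b h₂ c) := by
  classical
  have hdeg1 := Hκ.deg_one
  obtain ⟨S, hSZ, hS⟩ := exists_nodes_places2 hval hvalψ hdeg1 hFr₀ hFrψ₀
    (Rbar0 G₁ G₂ hxD.nonneg)
    (fun h hh => (LS0 h hh).1) (fun h hh => (LS0 h hh).2) Z₀ hZ₀ hJ₀
  obtain ⟨S₁, hS₁Z, hS₁⟩ := exists_nodes_places2 hval hvalψ hdeg1 hFr₁ hFrψ₁
    (Rbar1 G₁ G₂ hxO₁ hxO₂ hxD)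
    (fun h hh => (LS1 h hh).1) (fun h hh => (LS1 h hh).2) Z₁ hZ₁ hJ₁
  refine ⟨S, hSZ, ?_, hS⟩
  set x₁ : κ := G₁.red ⟨x, hxO₁⟩ with hx₁def
  set x₂ : κ := G₂.red ⟨x, hxO₂⟩ with hx₂def
  have hx₁0 : x₁ ≠ 0 := by
    intro h0
    have : E₁ = 0 := by
      ext v
      rw [hx₁ v, h0]
      simp
    rw [this, map_zero] at hpos₁
    exact lt_irrefl _ hpos₁
  have hx₂0 : x₂ ≠ 0 := by
    intro h0
    have : E₂ = 0 := by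
      ext v
      rw [hx₂ v, h0]
      simp
    rw [this, map_zero] at hpos₂
    exact lt_irrefl _ hpos₂
  -- the nodes
  let s₂ : S → Place k κ := fun b => b.1
  let s₁ : S → Place k κ := fun b => Frψ b.1
  have hinj : Function.Injective s₁ := fun b b' h => Subtype.ext (hFrψinj h)
  have hnotP₀ : ∀ b : S, b.1 ∉ P₀ := fun b => hZ₀ _ (hSZ b.2)
  have hE₁ : ∀ b : S, E₁ (s₁ b) = 0 := by
    intro b
    have hnn : 0 ≤ E₁ (Frψ b.1) := by rw [hx₁ _]; exact le_max_left _ _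
    have : ¬ 0 < E₁ (Frψ b.1) := fun hp => hFrψ₀ _ (hnotP₀ b) ((hP₀₁ _).mp hp)
    show E₁ (Frψ b.1) = 0
    omega
  have hE₂ : ∀ b : S, E₂ (s₂ b) = 0 := by
    intro b
    have hnn : 0 ≤ E₂ b.1 := by rw [hx₂ _]; exact le_max_left _ _
    have : ¬ 0 < E₂ b.1 := fun hp => hnotP₀ b ((hP₀₂ _).mp hp)
    show E₂ b.1 = 0
    omega
  -- `x̄` is regular off `P₀` and lies in `Rbar0`
  have hxreg₁ : x₁ ∈ regOff P₀ := by
    apply rr_le_regOff hx₁ hP₀₁ 1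
    rw [one_nsmul]
    exact Fermat.Agent.S37.Deuring.FundIneq.mem_rr_of_isPoleDiv hx₁
  have hxreg₂ : x₂ ∈ regOff P₀ := by
    apply rr_le_regOff hx₂ hP₀₂ 1
    rw [one_nsmul]
    exact Fermat.Agent.S37.Deuring.FundIneq.mem_rr_of_isPoleDiv hx₂
  have hxR0 : (x₁, x₂) ∈ Rbar0 G₁ G₂ hxD.nonneg := ⟨1, xbar_mem_W_one G₁ G₂ hxO₁ hxO₂ hxD⟩
  have hxg : ∀ b : S, GluedAt s₁ s₂ b (x₁, x₂) := fun b =>
    (hS x₁ x₂ hxreg₁ hxreg₂).mp hxR0 b.1 b.2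
  -- chart 0: every glued section is a reduction
  have h0 : ∀ d, ∀ p ∈ V s₁ s₂ E₁ E₂ d, ∃ r, p ∈ redSpace₂ G₁ G₂ ((d + r) • D) := by
    rintro d p ⟨hp1, hp2, hp3⟩
    have hR0 : (p.1, p.2) ∈ Rbar0 G₁ G₂ hxD.nonneg := by
      rw [hS p.1 p.2 (rr_le_regOff hx₁ hP₀₁ d hp1)
        (rr_le_regOff hx₂ hP₀₂ d hp2)]
      intro b hb
      exact hp3 ⟨b, hb⟩
    obtain ⟨r, hr⟩ := hR0
    exact ⟨r, W_le_of_le G₁ G₂ hxD.nonneg (Nat.le_add_left r d) hr⟩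
  -- chart 1
  have h1 : ∀ d, ∀ p ∈ V s₁ s₂ E₁ E₂ d, ∃ r,
      (x₁ ^ r * p.1, x₂ ^ r * p.2) ∈ redSpace₂ G₁ G₂ ((d + r) • D) := by
    intro d p hp
    obtain ⟨hp1, hp2, hp3⟩ := hp
    obtain ⟨r₀, hr₀⟩ := h0 d p ⟨hp1, hp2, hp3⟩
    -- `ξ = 1 / x̄`
    set ξ : κ × κ := (x₁⁻¹, x₂⁻¹) with hξ
    have hxξ : xbar G₁ G₂ hxO₁ hxO₂ * ξ = 1 := by
      show ((x₁, x₂) : κ × κ) * (x₁⁻¹, x₂⁻¹) = 1
      ext
      · exact mul_inv_cancel₀ hx₁0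
      · exact mul_inv_cancel₀ hx₂0
    have hξR1 : ξ ∈ Rbar1 G₁ G₂ hxO₁ hxO₂ hxD := by
      refine ⟨1, ?_⟩
      rw [pow_one, hxξ]
      unfold W
      exact one_mem_redSpace₂ G₁ G₂ (by rw [one_nsmul]; exact hxD.nonneg)
    have hξreg : ∀ (y : κ), y ≠ 0 → (∀ v, 0 < v.ord y ↔ v ∈ P₁) → y⁻¹ ∈ regOff P₁ := by
      intro y hy0 hP v hv
      rw [← Fermat.Agent.S24.Ord.ord_nonneg_iff v (inv_ne_zero hy0), v.ord_inv]
      have : ¬ 0 < v.ord y := fun hp => hv ((hP v).mp hp)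
      omega
    have hξ₁ : ξ.1 ∈ regOff P₁ := hξreg x₁ hx₁0 hP₁₁
    have hξ₂ : ξ.2 ∈ regOff P₁ := hξreg x₂ hx₂0 hP₁₂
    -- `q = ξ ^ d * p` is regular off `P₁`
    set q : κ × κ := ξ ^ d * p with hq
    have hq₁ : q.1 ∈ regOff P₁ := by
      have := inv_pow_mul_mem_regOff hx₁ hx₁0 hP₁₁ d hp1
      have e : q.1 = (x₁ ^ d)⁻¹ * p.1 := by
        show (ξ ^ d * p).1 = _
        rw [Prod.fst_mul, Prod.pow_fst, inv_pow]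
      rwa [e]
    have hq₂ : q.2 ∈ regOff P₁ := by
      have := inv_pow_mul_mem_regOff hx₂ hx₂0 hP₁₂ d hp2
      have e : q.2 = (x₂ ^ d)⁻¹ * p.2 := by
        show (ξ ^ d * p).2 = _
        rw [Prod.snd_mul, Prod.pow_snd, inv_pow]
      rwa [e]
    -- `ξ ^ (d + r₀) * p ∈ Rbar1`
    have hmem : ξ ^ r₀ * q ∈ Rbar1 G₁ G₂ hxO₁ hxO₂ hxD := by
      refine ⟨d + r₀, ?_⟩
      have e : xbar G₁ G₂ hxO₁ hxO₂ ^ (d + r₀) * (ξ ^ r₀ * q) = p := by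
        rw [hq, ← mul_assoc (ξ ^ r₀), ← pow_add, add_comm r₀ d, ← mul_assoc, ← mul_pow, hxξ,
          one_pow, one_mul]
      rw [e]
      exact hr₀
    -- gluing at the chart-1 nodes
    have hglue : ∀ b ∈ S₁, ∃ c : k, HasValue (Frψ b) q.1 c ∧ HasValue b q.2 c := by
      intro b hb
      have hbP₁ : b ∉ P₁ := hZ₁ b (hS₁Z hb)
      -- `ξ` is glued at `b` with non-zero value
      obtain ⟨ζ, hζ1, hζ2⟩ := (hS₁ ξ.1 ξ.2 hξ₁ hξ₂).mp hξR1 b hb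
      have hζ0 : ζ ≠ 0 := by
        rintro rfl
        -- then `b` is a pole of `x₂`, i.e. a cusp
        have hlt : b.adicValuation x₂⁻¹ < 1 := (hasValue_zero_iff b).mp hζ2
        have hpos := (Fermat.Agent.S24.Ord.ord_pos_iff b (inv_ne_zero hx₂0)).mpr hlt
        rw [b.ord_inv] at hpos
        have hbP₀ : b ∈ P₀ := by
          apply (hP₀₂ b).mp
          rw [hx₂ b]
          exact lt_max_of_lt_right (by omega)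
        obtain ⟨p', hp'R, hp'1, hp'2, hp'n⟩ := CUSP b (hS₁Z hb) hbP₀
        exact hp'n ((hS₁ p'.1 p'.2 hp'1 hp'2).mp hp'R b hb)
      -- values of `q`
      obtain ⟨c₁, hc₁⟩ := exists_hasValue (Frψ b) (hdeg1 _) (hq₁ _ (hFrψ₁ b hbP₁))
      obtain ⟨c₂, hc₂⟩ := exists_hasValue b (hdeg1 _) (hq₂ _ hbP₁)
      have hreg₁ : (ξ ^ r₀ * q).1 ∈ regOff P₁ := by
        rw [Prod.fst_mul, Prod.pow_fst]
        exact (regOff P₁).mul_mem ((regOff P₁).pow_mem hξ₁ _) hq₁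
      have hreg₂ : (ξ ^ r₀ * q).2 ∈ regOff P₁ := by
        rw [Prod.snd_mul, Prod.pow_snd]
        exact (regOff P₁).mul_mem ((regOff P₁).pow_mem hξ₂ _) hq₂
      obtain ⟨c, hc1, hc2⟩ := (hS₁ _ _ hreg₁ hreg₂).mp hmem b hb
      have e1 : c = ζ ^ r₀ * c₁ := by
        apply hc1.unique
        rw [Prod.fst_mul, Prod.pow_fst]
        exact (hζ1.pow r₀).mul hc₁
      have e2 : c = ζ ^ r₀ * c₂ := by
        apply hc2.unique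
        rw [Prod.snd_mul, Prod.pow_snd]
        exact (hζ2.pow r₀).mul hc₂
      have : c₁ = c₂ := by
        have h3 : ζ ^ r₀ * c₁ = ζ ^ r₀ * c₂ := by rw [← e1, ← e2]
        exact mul_left_cancel₀ (pow_ne_zero _ hζ0) h3
      exact ⟨c₁, hc₁, this ▸ hc₂⟩
    have hqR1 : (q.1, q.2) ∈ Rbar1 G₁ G₂ hxO₁ hxO₂ hxD := (hS₁ q.1 q.2 hq₁ hq₂).mpr hglue
    obtain ⟨r', hr'⟩ := hqR1
    -- raise `r'` by `d`
    have h2 := xbar_pow_mul_mem_W G₁ G₂ hxO₁ hxO₂ hxD hr' d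
    refine ⟨r', ?_⟩
    have e : xbar G₁ G₂ hxO₁ hxO₂ ^ d * (xbar G₁ G₂ hxO₁ hxO₂ ^ r' * (q.1, q.2))
        = (x₁ ^ r' * p.1, x₂ ^ r' * p.2) := by
      have hq' : ((q.1, q.2) : κ × κ) = ξ ^ d * p := rfl
      rw [hq', mul_left_comm, ← mul_assoc (xbar G₁ G₂ hxO₁ hxO₂ ^ d), ← mul_pow, hxξ, one_pow,
        one_mul]
      rfl
    rw [e, add_comm r' d] at h2
    exact h2
  have hfin : (g : ℤ) + 1 ≤ gκ + gκ + Fintype.card S :=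
    Fermat.Agent.S34.Euler.Main.genus_le_of_sandwich G₁ G₂ HL Hκ Hκ s₁ s₂ hinj hxO₁ hxO₂ hxD hx₁
      hx₂ hE₁ hE₂ hpos₁ hpos₂ hxg hdeg h0 h1
  rw [Fintype.card_coe] at hfin
  exact hfin

end Main

end Fermat.Agent.S43.LG1.C1.Euler.ChartTw
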