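/-
PROJECT R (row 37 by S43), gate, C1 = S34' (leader helper13, call #6271 (u4); helper25):
Euler characteristic, **the `k`-side inputs of `C1/Euler/ChartTw.genus_le_of_charts2`** on a
coefficientwise stable subfield `Fk ⊆ k((t))` (helper7's `C1/FrobKGen`), WITH THE DIAMOND TWIST.
Twin of `S34/Euler/FrobSide`, generic in the level, two-map.

`k` perfect of characteristic `q`, `φ = FrobKGen.phi`, `Fr = FrobKGen.Fr`, `d : Fk ≃ₐ[k] Fk` an
automorphism commuting with `psi` (`hdψ`) and fixing `j̄ = jC hJ` (`hdj`) -- at `X₁(N; r)` the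
reduced diamond; `d = 1` gives the statements of `S34/Euler/FrobSide`.

* `psiD = φ ∘ d`, `FrD = (Dp d)⁻¹ ∘ Fr` : the second map and its place map,
  `ord_psiD : ord_v (psiD g) = q · ord_(FrD v) g`;
* `valueRule : ValueRule φ Fr`, `valueRuleD : ValueRule psiD FrD`;
* `P0`, `P1` (poles / zeros of `j̄`), stable under `Fr`, `Dp d`, `FrD`;
* `ZfixTw P` : the finite set of twisted-fixed places `Fr (Fr ((Dp d)⁻¹ v)) = v` off `P`
  (= the zeros of the ideal `(g - psiD (φ g))`), `FrD_Fr_eq_iff`;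
* `mem_holo_iff_mem_regOff`, `pos_iff_mem_P0`, `pos_iff_mem_P1`, `ord_jk_pow_neg`,
  `inv_jk_pow_mem_regOff` : as in `S34/Euler/FrobSide`;
* `dHolo`, `psiHolo` : `d`, `psiD` on the holomorphy ring of a stable set.
-/
import Mathlib
import Fermat.Agent.S34.Euler.Chart
import Fermat.Agent.S43.LG1.C1.FrobKGen

set_option autoImplicit false
set_option linter.unusedSectionVars false

noncomputable section

namespace Fermat.Agent.S43.LG1.C1.Euler.FrobSideX1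

open AlgebraicCurve ModularCurve IntermediateField
open Fermat.Agent.S48.B.Red.CoeffAut1
open Fermat.Agent.S48.B.Inj.Basics (jC transcendental_jC isFF_jC)
open Fermat.Agent.S43.LG1.C1.FrobKGen
open Fermat.Agent.S34.Euler.Places Fermat.Agent.S34.Euler.Value
open Fermat.Agent.S37.Deuring.Core (IsPoleDiv)

variable {k : Type*} [Field k] {Fk : IntermediateField k (LaurentSeries k)}
variable (hC : CoeffStable Fk) (hJ : jqModC k ∈ Fk)
variable (q : ℕ) [hq : Fact q.Prime] [CharP k q] [PerfectField k]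
variable (d : ↥Fk ≃ₐ[k] ↥Fk)

/-! ### the two maps and their place maps -/

/-- the second map `ψ = φ ∘ d` -/
def psiD : ↥Fk →ₐ[k] ↥Fk := (phi hC q).comp (d : ↥Fk →ₐ[k] ↥Fk)

theorem psiD_apply (g : ↥Fk) : psiD hC q d g = phi hC q (d g) := rfl

/-- the place map of `ψ` : `v ↦ (Dp d)⁻¹ (Fr v)` -/
def FrD : Place k ↥Fk ≃ Place k ↥Fk := (Fr hC q).trans (Dp d).symm

theorem FrD_apply (v : Place k ↥Fk) : FrD hC q d v = (Dp d).symm (Fr hC q v) := rfl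

/-- **`ord_v (ψ g) = q · ord_(FrD v) g`** -/
theorem ord_psiD (v : Place k ↥Fk) (g : ↥Fk) :
    v.ord (psiD hC q d g) = (q : ℤ) * (FrD hC q d v).ord g := by
  rw [psiD_apply, ord_phi, ord_d, FrD_apply]

/-- the value rule `(φ g)(v) = g(Fr v)` -/
theorem valueRule : ValueRule (phi hC q) (Fr hC q) :=
  valueRule_of_ord (n := (q : ℤ)) (by exact_mod_cast hq.out.pos) (fun v g => ord_phi hC q v g)

/-- the value rule `(ψ g)(v) = g(FrD v)` -/
theorem valueRuleD : ValueRule (psiD hC q d) (FrD hC q d) :=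
  valueRule_of_ord (n := (q : ℤ)) (by exact_mod_cast hq.out.pos)
    (fun v g => ord_psiD hC q d v g)

theorem Fr_injective : Function.Injective (Fr hC q) := (Fr hC q).injective

theorem FrD_injective : Function.Injective (FrD hC q d) := (FrD hC q d).injective

/-- `ψ (φ g) = d (φ (φ g))` -/
theorem psiD_phi (hdψ : ∀ x : ↥Fk, d (psi hC q x) = psi hC q (d x)) (g : ↥Fk) :
    psiD hC q d (phi hC q g) = d (phi hC q (phi hC q g)) := by
  rw [psiD_apply, d_phi hC q d hdψ (phi hC q g)]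

/-- the zeros of the ideal `(g - ψ (φ g))` are the twisted-fixed places of `FrobKGen` -/
theorem FrD_Fr_eq_iff (hdψ : ∀ x : ↥Fk, d (psi hC q x) = psi hC q (d x)) (v : Place k ↥Fk) :
    Fr hC q (FrD hC q d v) = v ↔ Fr hC q (Fr hC q ((Dp d).symm v)) = v := by
  rw [FrD_apply, Fr_Dp_symm hC q d hdψ, Fr_Dp_symm hC q d hdψ, Fr_Dp_symm hC q d hdψ]

/-! ### poles and zeros of `j̄` -/

/-- `ord_(Fr v) j̄ = ord_v j̄` -/
theorem ord_Fr_jk (v : Place k ↥Fk) : (Fr hC q v).ord (jC hJ) = v.ord (jC hJ) :=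
  ord_Fr_of_psi_eq hC q v (psi_jk hC hJ q)

/-- `ord_(Dp d v) j̄ = ord_v j̄` -/
theorem ord_Dp_jk (hdj : d (jC hJ) = jC hJ) (v : Place k ↥Fk) :
    (Dp d v).ord (jC hJ) = v.ord (jC hJ) :=
  ord_Dp_of_fixed d v hdj

/-- `ord_(FrD v) j̄ = ord_v j̄` -/
theorem ord_FrD_jk (hdj : d (jC hJ) = jC hJ) (v : Place k ↥Fk) :
    (FrD hC q d v).ord (jC hJ) = v.ord (jC hJ) := by
  rw [FrD_apply, ← ord_d, hdj, ord_Fr_jk]

/-- the poles of `j̄` (the cusps) -/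
def P0 : Set (Place k ↥Fk) := {v | v.ord (jC hJ) < 0}

/-- the zeros of `j̄` -/
def P1 : Set (Place k ↥Fk) := {v | 0 < v.ord (jC hJ)}

theorem mem_P0 {v : Place k ↥Fk} : v ∈ P0 hJ ↔ v.ord (jC hJ) < 0 := Iff.rfl

theorem mem_P1 {v : Place k ↥Fk} : v ∈ P1 hJ ↔ 0 < v.ord (jC hJ) := Iff.rfl

theorem Fr_mem_P0_iff (v : Place k ↥Fk) : Fr hC q v ∈ P0 hJ ↔ v ∈ P0 hJ := by
  rw [mem_P0, mem_P0, ord_Fr_jk]

theorem Fr_mem_P1_iff (v : Place k ↥Fk) : Fr hC q v ∈ P1 hJ ↔ v ∈ P1 hJ := by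
  rw [mem_P1, mem_P1, ord_Fr_jk]

theorem Dp_mem_P0_iff (hdj : d (jC hJ) = jC hJ) (v : Place k ↥Fk) :
    Dp d v ∈ P0 hJ ↔ v ∈ P0 hJ := by
  rw [mem_P0, mem_P0, ord_Dp_jk hJ d hdj]

theorem Dp_mem_P1_iff (hdj : d (jC hJ) = jC hJ) (v : Place k ↥Fk) :
    Dp d v ∈ P1 hJ ↔ v ∈ P1 hJ := by
  rw [mem_P1, mem_P1, ord_Dp_jk hJ d hdj]

theorem FrD_mem_P0_iff (hdj : d (jC hJ) = jC hJ) (v : Place k ↥Fk) :
    FrD hC q d v ∈ P0 hJ ↔ v ∈ P0 hJ := by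
  rw [mem_P0, mem_P0, ord_FrD_jk hC hJ q d hdj]

theorem FrD_mem_P1_iff (hdj : d (jC hJ) = jC hJ) (v : Place k ↥Fk) :
    FrD hC q d v ∈ P1 hJ ↔ v ∈ P1 hJ := by
  rw [mem_P1, mem_P1, ord_FrD_jk hC hJ q d hdj]

theorem Fr_not_mem_P0 (v : Place k ↥Fk) (hv : v ∉ P0 hJ) : Fr hC q v ∉ P0 hJ :=
  fun h => hv ((Fr_mem_P0_iff hC hJ q v).mp h)

theorem Fr_not_mem_P1 (v : Place k ↥Fk) (hv : v ∉ P1 hJ) : Fr hC q v ∉ P1 hJ :=
  fun h => hv ((Fr_mem_P1_iff hC hJ q v).mp h)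

theorem FrD_not_mem_P0 (hdj : d (jC hJ) = jC hJ) (v : Place k ↥Fk) (hv : v ∉ P0 hJ) :
    FrD hC q d v ∉ P0 hJ := fun h => hv ((FrD_mem_P0_iff hC hJ q d hdj v).mp h)

theorem FrD_not_mem_P1 (hdj : d (jC hJ) = jC hJ) (v : Place k ↥Fk) (hv : v ∉ P1 hJ) :
    FrD hC q d v ∉ P1 hJ := fun h => hv ((FrD_mem_P1_iff hC hJ q d hdj v).mp h)

theorem jk_ne_zero : jC hJ ≠ 0 := by
  have htr := transcendental_jC hJ
  intro h
  rw [h] at htr
  exact htr ⟨Polynomial.X, Polynomial.X_ne_zero, by simp⟩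

/-- the hypothesis `hP₀ᵢ` of `genus_le_of_charts2` for `y = j̄ ^ (n + 1)` -/
theorem pos_iff_mem_P0 {y : ↥Fk} {n : ℕ} (hy : y = jC hJ ^ (n + 1)) {E : Divisor k ↥Fk}
    (hE : IsPoleDiv y E) (v : Place k ↥Fk) : 0 < E v ↔ v ∈ P0 hJ := by
  have hpow : v.ord y = ((n + 1 : ℕ) : ℤ) * v.ord (jC hJ) := by
    rw [hy]
    exact Fermat.Agent.S18.CoreOrd.ord_pow v _ _
  have hn : (0 : ℤ) < ((n + 1 : ℕ) : ℤ) := by exact_mod_cast Nat.succ_pos n
  rw [hE v, mem_P0, hpow]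
  constructor
  · intro h
    by_contra hle
    have h0 : 0 ≤ ((n + 1 : ℕ) : ℤ) * v.ord (jC hJ) := mul_nonneg hn.le (not_lt.mp hle)
    have : max 0 (-(((n + 1 : ℕ) : ℤ) * v.ord (jC hJ))) = 0 := max_eq_left (by omega)
    omega
  · intro h
    have h0 : ((n + 1 : ℕ) : ℤ) * v.ord (jC hJ) < 0 := mul_neg_of_pos_of_neg hn h
    exact lt_max_of_lt_right (by omega)

/-- the hypothesis `hP₁ᵢ` of `genus_le_of_charts2` for `y = j̄ ^ (n + 1)` -/
theorem pos_iff_mem_P1 {y : ↥Fk} {n : ℕ} (hy : y = jC hJ ^ (n + 1)) (v : Place k ↥Fk) :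
    0 < v.ord y ↔ v ∈ P1 hJ := by
  have hpow : v.ord y = ((n + 1 : ℕ) : ℤ) * v.ord (jC hJ) := by
    rw [hy]
    exact Fermat.Agent.S18.CoreOrd.ord_pow v _ _
  have hn : (0 : ℤ) < ((n + 1 : ℕ) : ℤ) := by exact_mod_cast Nat.succ_pos n
  rw [mem_P1, hpow]
  constructor
  · intro h
    by_contra hle
    have : ((n + 1 : ℕ) : ℤ) * v.ord (jC hJ) ≤ 0 :=
      mul_nonpos_of_nonneg_of_nonpos hn.le (not_lt.mp hle)
    omega
  · intro h
    exact mul_pos hn h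

/-- `regOff S` and `holo S` are the same subalgebra -/
theorem mem_holo_iff_mem_regOff (S : Set (Place k ↥Fk)) (g : ↥Fk) :
    g ∈ holo S ↔ g ∈ regOff S := by
  rw [mem_holo_iff, mem_regOff]
  exact forall₂_congr fun v _ => Fermat.Agent.S24.Ord.mem_iff v g

theorem holo_eq_regOff (S : Set (Place k ↥Fk)) : holo S = regOff S :=
  SetLike.ext (mem_holo_iff_mem_regOff S)

/-- the `t` of `Chart.cusp_of_witness`: `j̄ ^ (n + 1)` has a pole at every cusp and its inverse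
is regular off the zeros of `j̄` -/
theorem ord_jk_pow_neg {n : ℕ} (b : Place k ↥Fk) (hb : b ∈ P0 hJ) :
    b.ord (jC hJ ^ (n + 1)) < 0 := by
  rw [Fermat.Agent.S18.CoreOrd.ord_pow]
  have hn : (0 : ℤ) < ((n + 1 : ℕ) : ℤ) := by exact_mod_cast Nat.succ_pos n
  exact mul_neg_of_pos_of_neg hn hb

theorem inv_jk_pow_mem_regOff (n : ℕ) : (jC hJ ^ n)⁻¹ ∈ regOff (P1 hJ) := by
  intro v hv
  have h0 : (jC hJ ^ n)⁻¹ ≠ 0 := inv_ne_zero (pow_ne_zero _ (jk_ne_zero hJ))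
  rw [← Fermat.Agent.S24.Ord.ord_nonneg_iff v h0, v.ord_inv, Fermat.Agent.S18.CoreOrd.ord_pow]
  have hle : v.ord (jC hJ) ≤ 0 := not_lt.mp hv
  have : (n : ℤ) * v.ord (jC hJ) ≤ 0 :=
    mul_nonpos_of_nonneg_of_nonpos (Int.natCast_nonneg n) hle
  omega

/-! ### `d` and `ψ` on holomorphy rings -/

section Holo

/-- `d` preserves and reflects the holomorphy ring of a `Dp d`-stable set -/
theorem d_mem_holo_iff {S : Set (Place k ↥Fk)} (hS : ∀ w, Dp d w ∈ S ↔ w ∈ S) (g : ↥Fk) :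
    d g ∈ holo S ↔ g ∈ holo S := by
  rw [mem_holo_iff_ord, mem_holo_iff_ord]
  constructor
  · intro h v hv
    have h1 := h (Dp d v) (fun h' => hv ((hS v).mp h'))
    rwa [ord_Dp] at h1
  · intro h v hv
    rw [ord_d]
    apply h
    intro h'
    apply hv
    have := (hS ((Dp d).symm v)).mpr h'
    rwa [Equiv.apply_symm_apply] at this

/-- `d` restricted to the holomorphy ring of a `Dp d`-stable set -/
def dHolo {S : Set (Place k ↥Fk)} (hS : ∀ w, Dp d w ∈ S ↔ w ∈ S) : ↥(holo S) →ₐ[k] ↥(holo S) :=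
  AlgHom.codRestrict ((d : ↥Fk →ₐ[k] ↥Fk).comp (holo S).val) (holo S)
    (fun g => (d_mem_holo_iff d hS g.1).mpr g.2)

theorem coe_dHolo {S : Set (Place k ↥Fk)} (hS : ∀ w, Dp d w ∈ S ↔ w ∈ S) (g : ↥(holo S)) :
    ((dHolo d hS g : ↥(holo S)) : ↥Fk) = d (g : ↥Fk) := rfl

/-- `ψ = φ ∘ d` restricted to the holomorphy ring of a set stable under `Fr` and `Dp d` -/
def psiHolo {S : Set (Place k ↥Fk)} (hS : ∀ w, Fr hC q w ∈ S ↔ w ∈ S)
    (hSd : ∀ w, Dp d w ∈ S ↔ w ∈ S) : ↥(holo S) →ₐ[k] ↥(holo S) :=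
  (phiHolo hC q hS).comp (dHolo d hSd)

theorem coe_psiHolo {S : Set (Place k ↥Fk)} (hS : ∀ w, Fr hC q w ∈ S ↔ w ∈ S)
    (hSd : ∀ w, Dp d w ∈ S ↔ w ∈ S) (g : ↥(holo S)) :
    ((psiHolo hC q d hS hSd g : ↥(holo S)) : ↥Fk) = psiD hC q d (g : ↥Fk) := rfl

/-- `ψ (φ g) = d (φ (φ g))` on the holomorphy ring -/
theorem coe_psiHolo_phiHolo (hdψ : ∀ x : ↥Fk, d (psi hC q x) = psi hC q (d x))
    {S : Set (Place k ↥Fk)} (hS : ∀ w, Fr hC q w ∈ S ↔ w ∈ S)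
    (hSd : ∀ w, Dp d w ∈ S ↔ w ∈ S) (g : ↥(holo S)) :
    ((psiHolo hC q d hS hSd (phiHolo hC q hS g) : ↥(holo S)) : ↥Fk) =
      d (phi hC q (phi hC q (g : ↥Fk))) := by
  rw [coe_psiHolo, coe_phiHolo, psiD_phi hC q d hdψ]

end Holo

/-! ### the twisted-fixed places -/

section Fixed

variable [HasPrincipalDivisors k ↥Fk] [FiniteDimensional k⟮jC hJ⟯ ↥Fk] [IsAlgClosed k]
variable (hdψ : ∀ x : ↥Fk, d (psi hC q x) = psi hC q (d x)) (hdj : d (jC hJ) = jC hJ)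

open Classical in
/-- the finite set of twisted-fixed places `Fr (Fr ((Dp d)⁻¹ v)) = v` off `P` -/
def ZfixTw (P : Set (Place k ↥Fk)) : Finset (Place k ↥Fk) :=
  (finite_twisted_fixed hC hJ q d hdψ hdj).toFinset.filter fun v => v ∉ P

theorem mem_ZfixTw {P : Set (Place k ↥Fk)} {v : Place k ↥Fk} :
    v ∈ ZfixTw hC hJ q d hdψ hdj P ↔ Fr hC q (Fr hC q ((Dp d).symm v)) = v ∧ v ∉ P := by
  classical
  rw [ZfixTw, Finset.mem_filter, Set.Finite.mem_toFinset]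
  rfl

/-- in terms of the two place maps: `Fr (FrD v) = v` -/
theorem mem_ZfixTw' {P : Set (Place k ↥Fk)} {v : Place k ↥Fk} :
    v ∈ ZfixTw hC hJ q d hdψ hdj P ↔ Fr hC q (FrD hC q d v) = v ∧ v ∉ P := by
  rw [mem_ZfixTw, FrD_Fr_eq_iff hC q d hdψ]

theorem not_mem_of_mem_ZfixTw {P : Set (Place k ↥Fk)} (v : Place k ↥Fk)
    (hv : v ∈ ZfixTw hC hJ q d hdψ hdj P) : v ∉ P :=
  ((mem_ZfixTw hC hJ q d hdψ hdj).mp hv).2

end Fixed

end Fermat.Agent.S43.LG1.C1.Euler.FrobSideX1
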