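/-
PROJECT R (row 37 by S43), gate, C1 = S34' (leader helper13, call #6271 (u5); helper25):
Euler characteristic, **`C1/Euler/ChartTw.genus_le_of_charts2` at `κ = Fk`** (a coefficientwise
stable subfield of `k((t))`, helper7's `C1/FrobKGen`) with the two Frobenius pairs
`(φ, Fr) = (FrobKGen.phi, FrobKGen.Fr)`, `(ψ, FrD) = (φ ∘ d, (Dp d)⁻¹ ∘ Fr)` of `C1/Euler/FrobSideX1`.
Twin of `S34/Euler/ChartFullC`, generic in the level, two-map (`d = 1` is the `X₀` statement).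

All `k`-side arguments are discharged (`FrobSideX1`); the remaining hypotheses are in the shapes
delivered by the producers:

* `x ∈ O₁ ∩ O₂` with `red₁ x = red₂ x = j̄ ^ (n + 1)`, pole divisors `D`, `E`, `deg D = 2 deg E`;
* `LS0`, `LS1` : the level-`N` lifting statements, in the `regOff` / `Rbar0` / `Rbar1` form of
  `C1/Euler/ChartLiftX1.{LS0_X1, LS1_X1}` (`genus_le_of_charts_fullC1`) or in `redSpace₂` form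
  (`genus_le_of_charts_fullC1'`, the shape of `S34/Euler/ChartFullC`);
* `hJ₀`, `hJ₁` : the radical-ideal statements `HJ2` in `FrobKGen.holo` form, for ANY map `T` of the
  holomorphy ring with `T g = d (φ (φ g))`;
* `CUSP` : a witness `p ∈ redSpace₂ (r • D)` with `p.1 = x₁ ^ r`, `p.2 * j̄ ^ (m + 1) = x₂ ^ r`.

Conclusion: the node set `S` (a finite set of twisted-fixed non-cuspidal places), the genus
inequality `(NC)` and the chart-0 gluing description with the pairs `(FrD b, b)`.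
-/
import Mathlib
import Fermat.Agent.S43.LG1.C1.Euler.FrobSideX1
import Fermat.Agent.S43.LG1.C1.Euler.ChartTw

set_option autoImplicit false
set_option linter.unusedSectionVars false

noncomputable section

namespace Fermat.Agent.S43.LG1.C1.Euler.ChartFullCX1

open AlgebraicCurve ModularCurve IntermediateField
open Fermat.Agent.S48.B.Red.CoeffAut1
open Fermat.Agent.S48.B.Inj.Basics (jC)
open Fermat.Agent.S18.NonSpecial Fermat.Agent.S37.Deuring.Core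
open Fermat.Agent.S43.LG1.C1.FrobKGen
open Fermat.Agent.S34.Euler.Places Fermat.Agent.S34.Euler.Value
  Fermat.Agent.S34.Euler.RedPair Fermat.Agent.S34.Euler.Chart
open Fermat.Agent.S43.LG1.C1.Euler.FrobSideX1 Fermat.Agent.S43.LG1.C1.Euler.PlacesTw
  Fermat.Agent.S43.LG1.C1.Euler.ChartTw

variable {k : Type*} [Field k] {Fk : IntermediateField k (LaurentSeries k)}
variable (hC : CoeffStable Fk) (hJ : jqModC k ∈ Fk)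
variable (q : ℕ) [hq : Fact q.Prime] [CharP k q] [PerfectField k]
variable (d : ↥Fk ≃ₐ[k] ↥Fk)
variable [HasPrincipalDivisors k ↥Fk] [FiniteDimensional k⟮jC hJ⟯ ↥Fk] [IsAlgClosed k]
variable (hdψ : ∀ x : ↥Fk, d (psi hC q x) = psi hC q (d x)) (hdj : d (jC hJ) = jC hJ)

/-- the radical-ideal hypothesis in `holo` form : `T` any map of the holomorphy ring of `P`
(in the applications `T g = d (φ (φ g)) = ψ (φ g)`) -/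
def HJ2 (P : Set (Place k ↥Fk)) (T : ↥(holo P) → ↥(holo P)) : Prop :=
  ∀ w : holo P, (∀ b ∈ ZfixTw hC hJ q d hdψ hdj P, b.adicValuation (w : ↥Fk) < 1) →
    w ∈ Ideal.span (Set.range fun g : holo P => g - T g)

/-- `HJ2` gives the hypothesis `hJ` of `ChartTw.genus_le_of_charts2` -/
theorem hJ_of_HJ2 (hdeg : ∀ v : Place k ↥Fk, v.deg = 1) (P : Set (Place k ↥Fk))
    (hP : ∀ w, Fr hC q w ∈ P ↔ w ∈ P) (hPd : ∀ w, Dp d w ∈ P ↔ w ∈ P)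
    (hFrP : ∀ v, v ∉ P → Fr hC q v ∉ P) (hFrDP : ∀ v, v ∉ P → FrD hC q d v ∉ P)
    {T : ↥(holo P) → ↥(holo P)}
    (hT : ∀ g : holo P, ((T g : ↥(holo P)) : ↥Fk) = d (phi hC q (phi hC q (g : ↥Fk))))
    (h : HJ2 hC hJ q d hdψ hdj P T) :
    ∀ w : regOff P, (∀ b ∈ ZfixTw hC hJ q d hdψ hdj P, b.adicValuation (w : ↥Fk) < 1) →
      w ∈ Ideal.span (Set.range fun g : regOff P =>
        g - phiR (valueRuleD hC q d) hdeg hFrDP (phiR (valueRule hC q) hdeg hFrP g)) := by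
  refine hJ_of_subalgebra2 (valueRule hC q) (valueRuleD hC q d) hdeg hFrP hFrDP
    (ZfixTw hC hJ q d hdψ hdj P) (holo P) (mem_holo_iff_mem_regOff P)
    (phiHolo hC q hP).toRingHom (psiHolo hC q d hP hPd).toRingHom (fun _ => rfl) (fun _ => rfl) ?_
  have e : (fun g : holo P => g - T g) =
      fun g : holo P => g - (psiHolo hC q d hP hPd).toRingHom ((phiHolo hC q hP).toRingHom g) := by
    funext g
    congr 1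
    apply Subtype.ext
    rw [hT g]
    exact (coe_psiHolo_phiHolo hC q d hdψ hP hPd g).symm
  rw [← e]
  exact h

variable {hC hJ q d}
variable {L : Type*} [Field L] {A : ValuationSubring L} {π : A →+* k}
variable {FL : Type*} [Field FL] [Algebra L FL]

/-- **(NC) at `κ = Fk`, two-map form**, with (LS0), (LS1) in the `regOff` / `Rbar` shape. -/
theorem genus_le_of_charts_fullC1
    (G₁ G₂ : GaussDatum A π FL ↥Fk)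
    {g gκ : ℕ} (HL : RiemannHyp L FL g) (Hκ : RiemannHyp k ↥Fk gκ)
    {x : FL} (hxO₁ : x ∈ G₁.O) (hxO₂ : x ∈ G₂.O) {D : Divisor L FL} (hxD : IsPoleDiv x D)
    (n : ℕ) (hx₁ : G₁.red ⟨x, hxO₁⟩ = jC hJ ^ (n + 1))
    (hx₂ : G₂.red ⟨x, hxO₂⟩ = jC hJ ^ (n + 1))
    {E : Divisor k ↥Fk} (hE : IsPoleDiv (jC hJ ^ (n + 1)) E)
    (hpos : 0 < Divisor.degree E)
    (hdeg : Divisor.degree D = Divisor.degree E + Divisor.degree E)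
    -- chart 0
    (LS0 : ∀ h ∈ regOff (P0 hJ), (h, psiD hC q d h) ∈ Rbar0 G₁ G₂ hxD.nonneg ∧
      (phi hC q h, h) ∈ Rbar0 G₁ G₂ hxD.nonneg)
    {T₀ : ↥(holo (P0 hJ)) → ↥(holo (P0 hJ))}
    (hT₀ : ∀ g : holo (P0 hJ),
      ((T₀ g : ↥(holo (P0 hJ))) : ↥Fk) = d (phi hC q (phi hC q (g : ↥Fk))))
    (hJ₀ : HJ2 hC hJ q d hdψ hdj (P0 hJ) T₀)
    -- chart 1
    (LS1 : ∀ h ∈ regOff (P1 hJ), (h, psiD hC q d h) ∈ Rbar1 G₁ G₂ hxO₁ hxO₂ hxD ∧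
      (phi hC q h, h) ∈ Rbar1 G₁ G₂ hxO₁ hxO₂ hxD)
    {T₁ : ↥(holo (P1 hJ)) → ↥(holo (P1 hJ))}
    (hT₁ : ∀ g : holo (P1 hJ),
      ((T₁ g : ↥(holo (P1 hJ))) : ↥Fk) = d (phi hC q (phi hC q (g : ↥Fk))))
    (hJ₁ : HJ2 hC hJ q d hdψ hdj (P1 hJ) T₁)
    (CUSP : ∃ (r m : ℕ) (p : ↥Fk × ↥Fk),
      p ∈ redSpace₂ G₁ G₂ (r • D) ∧ p.1 = G₁.red ⟨x, hxO₁⟩ ^ r ∧
        p.2 * jC hJ ^ (m + 1) = G₂.red ⟨x, hxO₂⟩ ^ r) :
    ∃ S : Finset (Place k ↥Fk),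
      (∀ b ∈ S, Fr hC q (Fr hC q ((Dp d).symm b)) = b ∧ b ∉ P0 hJ) ∧
      (g : ℤ) + 1 ≤ gκ + gκ + S.card ∧
      ∀ h₁ h₂ : ↥Fk, h₁ ∈ regOff (P0 hJ) → h₂ ∈ regOff (P0 hJ) →
        ((h₁, h₂) ∈ Rbar0 G₁ G₂ hxD.nonneg ↔
          ∀ b ∈ S, ∃ c : k, HasValue (FrD hC q d b) h₁ c ∧ HasValue b h₂ c) := by
  have hE₁ : IsPoleDiv (G₁.red ⟨x, hxO₁⟩) E := by rw [hx₁]; exact hE
  have hE₂ : IsPoleDiv (G₂.red ⟨x, hxO₂⟩) E := by rw [hx₂]; exact hE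
  obtain ⟨r, m, p, hp, hp1, hp2⟩ := CUSP
  obtain ⟨S, hSZ, hNC, hb⟩ := genus_le_of_charts2 G₁ G₂ HL Hκ (valueRule hC q)
    (valueRuleD hC q d) (FrD_injective hC q d) hxO₁ hxO₂ hxD hE₁ hE₂ hpos hpos hdeg
    (P₀ := P0 hJ) (P₁ := P1 hJ)
    (pos_iff_mem_P0 hJ hx₁ hE₁) (pos_iff_mem_P0 hJ hx₂ hE₂)
    (pos_iff_mem_P1 hJ hx₁) (pos_iff_mem_P1 hJ hx₂)
    (Fr_not_mem_P0 hC hJ q) (Fr_not_mem_P1 hC hJ q)
    (FrD_not_mem_P0 hC hJ q d hdj) (FrD_not_mem_P1 hC hJ q d hdj)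
    LS0
    (ZfixTw hC hJ q d hdψ hdj (P0 hJ)) (not_mem_of_mem_ZfixTw hC hJ q d hdψ hdj)
    (hJ_of_HJ2 hC hJ q d hdψ hdj Hκ.deg_one (P0 hJ) (Fr_mem_P0_iff hC hJ q)
      (Dp_mem_P0_iff hJ d hdj) (Fr_not_mem_P0 hC hJ q) (FrD_not_mem_P0 hC hJ q d hdj) hT₀ hJ₀)
    LS1
    (ZfixTw hC hJ q d hdψ hdj (P1 hJ)) (not_mem_of_mem_ZfixTw hC hJ q d hdψ hdj)
    (hJ_of_HJ2 hC hJ q d hdψ hdj Hκ.deg_one (P1 hJ) (Fr_mem_P1_iff hC hJ q)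
      (Dp_mem_P1_iff hJ d hdj) (Fr_not_mem_P1 hC hJ q) (FrD_not_mem_P1 hC hJ q d hdj) hT₁ hJ₁)
    (cusp_of_witness G₁ G₂ hxO₁ hxO₂ hxD (t := jC hJ ^ (m + 1))
      (fun b hb => ord_jk_pow_neg hJ b hb) (inv_jk_pow_mem_regOff hJ (m + 1)) hp hp1 hp2
      (ZfixTw hC hJ q d hdψ hdj (P1 hJ)))
  refine ⟨S, fun b hbS => ?_, hNC, hb⟩
  exact (mem_ZfixTw hC hJ q d hdψ hdj).mp (hSZ hbS)

/-- **(NC) at `κ = Fk`, two-map form**, with (LS0), (LS1) in the `redSpace₂` shape of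
`S34/Euler/ChartFullC.genus_le_of_charts_fullC`. -/
theorem genus_le_of_charts_fullC1'
    (G₁ G₂ : GaussDatum A π FL ↥Fk)
    {g gκ : ℕ} (HL : RiemannHyp L FL g) (Hκ : RiemannHyp k ↥Fk gκ)
    {x : FL} (hxO₁ : x ∈ G₁.O) (hxO₂ : x ∈ G₂.O) {D : Divisor L FL} (hxD : IsPoleDiv x D)
    (n : ℕ) (hx₁ : G₁.red ⟨x, hxO₁⟩ = jC hJ ^ (n + 1))
    (hx₂ : G₂.red ⟨x, hxO₂⟩ = jC hJ ^ (n + 1))
    {E : Divisor k ↥Fk} (hE : IsPoleDiv (jC hJ ^ (n + 1)) E)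
    (hpos : 0 < Divisor.degree E)
    (hdeg : Divisor.degree D = Divisor.degree E + Divisor.degree E)
    -- chart 0
    (LS0 : ∀ h : ↥Fk,
      (∀ v : Place k ↥Fk, 0 ≤ v.ord (jC hJ) → h = 0 ∨ 0 ≤ v.ord h) →
      ∃ r : ℕ, (h, psiD hC q d h) ∈ redSpace₂ G₁ G₂ (r • D) ∧
        (phi hC q h, h) ∈ redSpace₂ G₁ G₂ (r • D))
    {T₀ : ↥(holo (P0 hJ)) → ↥(holo (P0 hJ))}
    (hT₀ : ∀ g : holo (P0 hJ),
      ((T₀ g : ↥(holo (P0 hJ))) : ↥Fk) = d (phi hC q (phi hC q (g : ↥Fk))))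
    (hJ₀ : HJ2 hC hJ q d hdψ hdj (P0 hJ) T₀)
    -- chart 1
    (LS1 : ∀ h : ↥Fk,
      (∀ v : Place k ↥Fk, v.ord (jC hJ) ≤ 0 → h = 0 ∨ 0 ≤ v.ord h) →
      ∃ r : ℕ, (G₁.red ⟨x, hxO₁⟩ ^ r * h, G₂.red ⟨x, hxO₂⟩ ^ r * psiD hC q d h)
          ∈ redSpace₂ G₁ G₂ (r • D) ∧
        (G₁.red ⟨x, hxO₁⟩ ^ r * phi hC q h, G₂.red ⟨x, hxO₂⟩ ^ r * h)
          ∈ redSpace₂ G₁ G₂ (r • D))
    {T₁ : ↥(holo (P1 hJ)) → ↥(holo (P1 hJ))}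
    (hT₁ : ∀ g : holo (P1 hJ),
      ((T₁ g : ↥(holo (P1 hJ))) : ↥Fk) = d (phi hC q (phi hC q (g : ↥Fk))))
    (hJ₁ : HJ2 hC hJ q d hdψ hdj (P1 hJ) T₁)
    (CUSP : ∃ (r m : ℕ) (p : ↥Fk × ↥Fk),
      p ∈ redSpace₂ G₁ G₂ (r • D) ∧ p.1 = G₁.red ⟨x, hxO₁⟩ ^ r ∧
        p.2 * jC hJ ^ (m + 1) = G₂.red ⟨x, hxO₂⟩ ^ r) :
    ∃ S : Finset (Place k ↥Fk),
      (∀ b ∈ S, Fr hC q (Fr hC q ((Dp d).symm b)) = b ∧ b ∉ P0 hJ) ∧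
      (g : ℤ) + 1 ≤ gκ + gκ + S.card ∧
      ∀ h₁ h₂ : ↥Fk, h₁ ∈ regOff (P0 hJ) → h₂ ∈ regOff (P0 hJ) →
        ((h₁, h₂) ∈ Rbar0 G₁ G₂ hxD.nonneg ↔
          ∀ b ∈ S, ∃ c : k, HasValue (FrD hC q d b) h₁ c ∧ HasValue b h₂ c) := by
  have hreg₀ : ∀ h : ↥Fk, h ∈ regOff (P0 hJ) →
      ∀ v : Place k ↥Fk, 0 ≤ v.ord (jC hJ) → h = 0 ∨ 0 ≤ v.ord h := by
    intro h hh v hv
    rcases eq_or_ne h 0 with h0 | h0
    · exact Or.inl h0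
    · exact Or.inr ((Fermat.Agent.S24.Ord.ord_nonneg_iff v h0).mpr (hh v (not_lt.mpr hv)))
  have hreg₁ : ∀ h : ↥Fk, h ∈ regOff (P1 hJ) →
      ∀ v : Place k ↥Fk, v.ord (jC hJ) ≤ 0 → h = 0 ∨ 0 ≤ v.ord h := by
    intro h hh v hv
    rcases eq_or_ne h 0 with h0 | h0
    · exact Or.inl h0
    · exact Or.inr ((Fermat.Agent.S24.Ord.ord_nonneg_iff v h0).mpr (hh v (not_lt.mpr hv)))
  exact genus_le_of_charts_fullC1 (hdψ := hdψ) (hdj := hdj) G₁ G₂ HL Hκ hxO₁ hxO₂ hxD n hx₁ hx₂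
    hE hpos hdeg
    (fun h hh => by
      obtain ⟨r, h1, h2⟩ := LS0 h (hreg₀ h hh)
      exact ⟨⟨r, h1⟩, ⟨r, h2⟩⟩)
    hT₀ hJ₀
    (fun h hh => by
      obtain ⟨r, h1, h2⟩ := LS1 h (hreg₁ h hh)
      exact ⟨⟨r, h1⟩, ⟨r, h2⟩⟩)
    hT₁ hJ₁ CUSP

end Fermat.Agent.S43.LG1.C1.Euler.ChartFullCX1
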