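/-
PROJECT R (row 37 by S43), gate, C1 = S34' (leader helper13, call #6271 (u6); helper25):
**the radical-ideal hypotheses `HJ2` of `C1/Euler/ChartFullCX1.genus_le_of_charts_fullC1`** at the
poles and at the zeros of `j̄`.  Twin of `S34/Euler/HoloBridge`, generic in the level, two-map.

* `finite_P0`, `finite_P1`, `exists_mem_P0`, `exists_mem_P1` : the sets `P0`, `P1` of
  `C1/Euler/FrobSideX1` are finite and non-empty;
* `hJ2_holo` : `HJ2 .. S T` for every finite non-empty set `S` stable under `Fr` and `Dp d` and every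
  presentation `T` of `g ↦ d (φ (φ g))` on `holo S` (from helper23's
  `C1/HoloIdealGen.inf_mv_le_span_of`);
* `TT`, `hJ2_P0`, `hJ2_P1` : the two instances used by the Euler characteristic argument, at the
  canonical `T = psiHolo ∘ phiHolo`;
* `genus_le_of_charts_holo` : `ChartFullCX1.genus_le_of_charts_fullC1` with `hJ₀`, `hJ₁` discharged.
-/
import Mathlib
import Fermat.Agent.S43.LG1.C1.Euler.ChartFullCX1
import Fermat.Agent.S43.LG1.C1.HoloIdealGen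
import Fermat.Agent.S18.A.PoleBridge

set_option autoImplicit false
set_option linter.unusedSectionVars false

noncomputable section

namespace Fermat.Agent.S43.LG1.C1.Euler.HoloBridgeX1

open AlgebraicCurve ModularCurve IntermediateField
open Fermat.Agent.S48.B.Red.CoeffAut1
open Fermat.Agent.S48.B.Inj.Basics (jC isFF_jC isSeparable_jC)
open Fermat.Agent.S18.NonSpecial
open Fermat.Agent.S37.Deuring.Core
open Fermat.Agent.S34.Euler.Places Fermat.Agent.S34.Euler.Value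
  Fermat.Agent.S34.Euler.RedPair Fermat.Agent.S34.Euler.Chart
open Fermat.Agent.S43.LG1.C1.FrobKGen Fermat.Agent.S43.LG1.C1.Euler.FrobSideX1
  Fermat.Agent.S43.LG1.C1.Euler.ChartFullCX1
open Fermat.Agent.S43.LG1.C1.HoloIdealGen (inf_mv_le_span_of mem_fixedOffTw mv mem_mv_iff)

variable {k : Type*} [Field k] {Fk : IntermediateField k (LaurentSeries k)}
variable (hC : CoeffStable Fk) (hJ : jqModC k ∈ Fk)
variable [HasPrincipalDivisors k ↥Fk] [FiniteDimensional k⟮jC hJ⟯ ↥Fk] [PerfectField k]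

include hC in
theorem finite_P0 : (P0 hJ).Finite :=
  (finite_ord_ne_zero hC (jk_ne_zero hJ)).subset fun _ hv => ne_of_lt hv

include hC in
theorem finite_P1 : (P1 hJ).Finite :=
  (finite_ord_ne_zero hC (jk_ne_zero hJ)).subset fun _ hv => ne_of_gt hv

variable [IsAlgClosed k]

theorem exists_mem_P0 : ∃ Q : Place k ↥Fk, Q ∈ P0 hJ :=
  Fermat.Agent.S18.A.PoleBridge.exists_pole (isFF_jC hJ) (isSeparable_jC hJ)

theorem exists_mem_P1 : ∃ Q : Place k ↥Fk, Q ∈ P1 hJ := by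
  obtain ⟨Q, hQ⟩ := Fermat.Agent.S18.A.PoleBridge.exists_pole (isFF_jC hJ).inv
    (Fermat.Agent.S18.A.Defs.isSeparable_inv (isSeparable_jC hJ))
  refine ⟨Q, ?_⟩
  rw [Q.ord_inv] at hQ
  show 0 < Q.ord (jC hJ)
  omega

/-! ### the radical-ideal hypotheses -/

variable (q : ℕ) [hq : Fact q.Prime] [CharP k q]
variable (d : ↥Fk ≃ₐ[k] ↥Fk)
variable (hdψ : ∀ x : ↥Fk, d (psi hC q x) = psi hC q (d x)) (hdj : d (jC hJ) = jC hJ)

/-- **`HJ2` for a finite non-empty set stable under `Fr` and `Dp d`.** -/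
theorem hJ2_holo {gk : ℕ} (hR : RiemannHyp k ↥Fk gk) {S : Set (Place k ↥Fk)} {Q0 : Place k ↥Fk}
    (hQ0 : Q0 ∈ S) (hS : ∀ w, Fr hC q w ∈ S ↔ w ∈ S) (hSd : ∀ w, Dp d w ∈ S ↔ w ∈ S)
    (hSfin : S.Finite) (T : ↥(holo S) → ↥(holo S))
    (hT : ∀ g : ↥(holo S), ((T g : ↥(holo S)) : ↥Fk) = d (phi hC q (phi hC q (g : ↥Fk)))) :
    HJ2 hC hJ q d hdψ hdj S T := by
  classical
  intro w hw
  apply inf_mv_le_span_of hC hJ q d hdψ hR hQ0 hdj hS hSd hSfin T hT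
  rw [Submodule.mem_finsetInf]
  intro J hJ'
  obtain ⟨v, hv, rfl⟩ := Finset.mem_image.mp hJ'
  have hv' := (mem_fixedOffTw hC hJ q d hdψ hdj).mp hv
  show w ∈ mv S v
  rw [mem_mv_iff hv'.2]
  exact hw v ((mem_ZfixTw hC hJ q d hdψ hdj).mpr hv')

/-- the canonical presentation `T = psiHolo ∘ phiHolo` of `g ↦ d (φ (φ g))` -/
def TT {S : Set (Place k ↥Fk)} (hS : ∀ w, Fr hC q w ∈ S ↔ w ∈ S)
    (hSd : ∀ w, Dp d w ∈ S ↔ w ∈ S) : ↥(holo S) → ↥(holo S) :=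
  fun g => psiHolo hC q d hS hSd (phiHolo hC q hS g)

include hdψ in
theorem coe_TT {S : Set (Place k ↥Fk)} (hS : ∀ w, Fr hC q w ∈ S ↔ w ∈ S)
    (hSd : ∀ w, Dp d w ∈ S ↔ w ∈ S) (g : ↥(holo S)) :
    ((TT hC q d hS hSd g : ↥(holo S)) : ↥Fk) = d (phi hC q (phi hC q (g : ↥Fk))) :=
  coe_psiHolo_phiHolo hC q d hdψ hS hSd g

/-- `HJ2` at the poles of `j̄` -/
theorem hJ2_P0 {gk : ℕ} (hR : RiemannHyp k ↥Fk gk) :
    HJ2 hC hJ q d hdψ hdj (P0 hJ)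
      (TT hC q d (Fr_mem_P0_iff hC hJ q) (Dp_mem_P0_iff hJ d hdj)) := by
  obtain ⟨Q0, hQ0⟩ := exists_mem_P0 hJ
  exact hJ2_holo hC hJ q d hdψ hdj hR hQ0 (Fr_mem_P0_iff hC hJ q) (Dp_mem_P0_iff hJ d hdj)
    (finite_P0 hC hJ) _ (coe_TT hC q d hdψ _ _)

/-- `HJ2` at the zeros of `j̄` -/
theorem hJ2_P1 {gk : ℕ} (hR : RiemannHyp k ↥Fk gk) :
    HJ2 hC hJ q d hdψ hdj (P1 hJ)
      (TT hC q d (Fr_mem_P1_iff hC hJ q) (Dp_mem_P1_iff hJ d hdj)) := by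
  obtain ⟨Q0, hQ0⟩ := exists_mem_P1 hJ
  exact hJ2_holo hC hJ q d hdψ hdj hR hQ0 (Fr_mem_P1_iff hC hJ q) (Dp_mem_P1_iff hJ d hdj)
    (finite_P1 hC hJ) _ (coe_TT hC q d hdψ _ _)

/-! ### (NC) with the radical-ideal hypotheses discharged -/

variable {L : Type*} [Field L] {A : ValuationSubring L} {π : A →+* k}
variable {FL : Type*} [Field FL] [Algebra L FL]

include hdψ hdj in
/-- **(NC) at `κ = Fk`, two-map form** : `ChartFullCX1.genus_le_of_charts_fullC1` with `hJ₀`, `hJ₁`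
discharged.  What is left : the `x`-data, (LS0), (LS1), (CUSP). -/
theorem genus_le_of_charts_holo
    (G₁ G₂ : GaussDatum A π FL ↥Fk)
    {g gκ : ℕ} (HL : RiemannHyp L FL g) (Hκ : RiemannHyp k ↥Fk gκ)
    {x : FL} (hxO₁ : x ∈ G₁.O) (hxO₂ : x ∈ G₂.O) {D : Divisor L FL} (hxD : IsPoleDiv x D)
    (n : ℕ) (hx₁ : G₁.red ⟨x, hxO₁⟩ = jC hJ ^ (n + 1))
    (hx₂ : G₂.red ⟨x, hxO₂⟩ = jC hJ ^ (n + 1))
    {E : Divisor k ↥Fk} (hE : IsPoleDiv (jC hJ ^ (n + 1)) E)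
    (hpos : 0 < Divisor.degree E)
    (hdeg : Divisor.degree D = Divisor.degree E + Divisor.degree E)
    (LS0 : ∀ h ∈ regOff (P0 hJ), (h, psiD hC q d h) ∈ Rbar0 G₁ G₂ hxD.nonneg ∧
      (phi hC q h, h) ∈ Rbar0 G₁ G₂ hxD.nonneg)
    (LS1 : ∀ h ∈ regOff (P1 hJ), (h, psiD hC q d h) ∈ Rbar1 G₁ G₂ hxO₁ hxO₂ hxD ∧
      (phi hC q h, h) ∈ Rbar1 G₁ G₂ hxO₁ hxO₂ hxD)
    (CUSP : ∃ (r m : ℕ) (p : ↥Fk × ↥Fk),
      p ∈ redSpace₂ G₁ G₂ (r • D) ∧ p.1 = G₁.red ⟨x, hxO₁⟩ ^ r ∧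
        p.2 * jC hJ ^ (m + 1) = G₂.red ⟨x, hxO₂⟩ ^ r) :
    ∃ S : Finset (Place k ↥Fk),
      (∀ b ∈ S, Fr hC q (Fr hC q ((Dp d).symm b)) = b ∧ b ∉ P0 hJ) ∧
      (g : ℤ) + 1 ≤ gκ + gκ + S.card ∧
      ∀ h₁ h₂ : ↥Fk, h₁ ∈ regOff (P0 hJ) → h₂ ∈ regOff (P0 hJ) →
        ((h₁, h₂) ∈ Rbar0 G₁ G₂ hxD.nonneg ↔
          ∀ b ∈ S, ∃ c : k, HasValue (FrD hC q d b) h₁ c ∧ HasValue b h₂ c) :=
  genus_le_of_charts_fullC1 (hdψ := hdψ) (hdj := hdj) G₁ G₂ HL Hκ hxO₁ hxO₂ hxD n hx₁ hx₂ hE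
    hpos hdeg LS0 (coe_TT hC q d hdψ _ _) (hJ2_P0 hC hJ q d hdψ hdj Hκ) LS1
    (coe_TT hC q d hdψ _ _) (hJ2_P1 hC hJ q d hdψ hdj Hκ) CUSP

end Fermat.Agent.S43.LG1.C1.Euler.HoloBridgeX1
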