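/-
S43 (row 37), PROJECT R, block `LG1`, brick `C1` (twin of `S34` at `X₁(N)`), file
`Euler/ChartLiftTw` (helper23): the ABSTRACT two-map twin of the dictionary part of main's
`S34/Euler/ChartLift`.

On `X₁(N; r)` the reduction dictionary of the two degeneracy maps has TWO maps (helper5's
`C1/PairDictSwapTw.PairDict2`): `(red₁, red₂)(α g) = (ḡ, ψ ḡ)`, `(red₁, red₂)(β g) = (φ ḡ, ḡ)` with
`ψ = φ ∘ d̄`, `d̄` a reduced diamond.  Everything of `S34/Euler/ChartLift` which does not mention the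
dictionary (`redPair_mem_of_poles`, `pow_mul_redPair_mem_of_zeros`, `regular_of_restr_poles`,
`regular_of_restr_zeros`, `ord_nonneg_of_poleDiv_mul`, `ord_nonpos_of_ord_mul_nonpos`,
`ord_nonneg_of_mem_regOff`) is imported from main as it is.

* `ls0_of_lift2`, `ls1_of_lift2` : for a given lift `g ∈ GM.O`, the pairs `(ḡ, ψ ḡ)`, `(φ ḡ, ḡ)`
  (resp. their multiples by `x̄ ^ m`) lie in `redSpace₂ G₁ G₂ (m D)` for all large `m`;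
* `ls02`, `ls12` : the same for every `ḡ` regular off the poles (zeros) of `ū`;
* `LS02`, `LS12` : in the shape `regOff`, `Rbar0`, `Rbar1` of `S34/Euler/Chart`.
-/
import Mathlib
import Fermat.Agent.S34.Euler.ChartLift
import Fermat.Agent.S43.LG1.C1.PairDictSwapTw

set_option autoImplicit false
set_option linter.unusedSectionVars false

noncomputable section

namespace Fermat.Agent.S43.LG1.C1.Euler.ChartLiftTw

open AlgebraicCurve Fermat.Agent.S18.NonSpecial Fermat.Agent.S37.Deuring.Core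
  Fermat.Agent.S34.Euler.RedPair Fermat.Agent.S34.LevelMSurj Fermat.Agent.S34.Euler.Places
  Fermat.Agent.S34.Euler.Chart Fermat.Agent.S34.Euler.ChartLift
  Fermat.Agent.S43.LG1.C1.PairDictSwapTw

variable {L : Type*} [Field L] {k : Type*} [Field k]
variable {A : ValuationSubring L} {π : A →+* k}
variable {FM : Type*} [Field FM] [Algebra L FM]
variable {FL : Type*} [Field FL] [Algebra L FL]
variable {κ : Type*} [Field κ] [Algebra k κ]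
variable {GM : GaussDatum A π FM κ} {G₁ G₂ : GaussDatum A π FL κ}
variable {α β : FM →+* FL} {φ ψ : κ → κ} {gL gk : ℕ}
variable [HasPrincipalDivisors L FL]

/-- chart `x ≠ ∞`, for a given lift: if `α g`, `β g` are regular off the poles of `x`, the pairs
`(ḡ, ψ ḡ)`, `(φ ḡ, ḡ)` lie in the reduction of `L(m D) ∩ O₁ ∩ O₂` for all large `m`. -/
theorem ls0_of_lift2 (d : PairDict2 GM G₁ G₂ α β φ ψ) {x : FL} {D : Divisor L FL}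
    (hD : IsPoleDiv x D) (g : GM.O)
    (hαg : ∀ P : Place L FL, D P = 0 → 0 ≤ P.ord (α (g : FM)))
    (hβg : ∀ P : Place L FL, D P = 0 → 0 ≤ P.ord (β (g : FM))) :
    ∃ r₀ : ℕ, ∀ m : ℕ, r₀ ≤ m →
      (GM.red g, ψ (GM.red g)) ∈ redSpace₂ G₁ G₂ (m • D) ∧
      (φ (GM.red g), GM.red g) ∈ redSpace₂ G₁ G₂ (m • D) := by
  obtain ⟨ra, hra⟩ := redPair_mem_of_poles G₁ G₂ hD (α (g : FM)) (d.alpha_mem₁ g)
    (d.alpha_mem₂ g) hαg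
  obtain ⟨rb, hrb⟩ := redPair_mem_of_poles G₁ G₂ hD (β (g : FM)) (d.beta_mem₁ g)
    (d.beta_mem₂ g) hβg
  refine ⟨max ra rb, fun m hm => ⟨?_, ?_⟩⟩
  · have := hra m ((le_max_left _ _).trans hm)
    rwa [d.redPair_alpha] at this
  · have := hrb m ((le_max_right _ _).trans hm)
    rwa [d.redPair_beta] at this

/-- chart `x ≠ 0`, for a given lift: if `α g`, `β g` are regular off the zeros of `x`, then
`x̄ ^ m (ḡ, ψ ḡ)`, `x̄ ^ m (φ ḡ, ḡ)` lie in the reduction of `L(m D) ∩ O₁ ∩ O₂` for all large `m`. -/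
theorem ls1_of_lift2 (d : PairDict2 GM G₁ G₂ α β φ ψ) {x : FL} (hx₁ : x ∈ G₁.O) (hx₂ : x ∈ G₂.O)
    {D : Divisor L FL} (hD : IsPoleDiv x D) (g : GM.O)
    (hαg : ∀ P : Place L FL, P.ord x ≤ 0 → 0 ≤ P.ord (α (g : FM)))
    (hβg : ∀ P : Place L FL, P.ord x ≤ 0 → 0 ≤ P.ord (β (g : FM))) :
    ∃ r₀ : ℕ, ∀ m : ℕ, r₀ ≤ m →
      (G₁.red ⟨x, hx₁⟩ ^ m * GM.red g, G₂.red ⟨x, hx₂⟩ ^ m * ψ (GM.red g))
        ∈ redSpace₂ G₁ G₂ (m • D) ∧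
      (G₁.red ⟨x, hx₁⟩ ^ m * φ (GM.red g), G₂.red ⟨x, hx₂⟩ ^ m * GM.red g)
        ∈ redSpace₂ G₁ G₂ (m • D) := by
  obtain ⟨ra, hra⟩ := pow_mul_redPair_mem_of_zeros G₁ G₂ hx₁ hx₂ hD (α (g : FM)) (d.alpha_mem₁ g)
    (d.alpha_mem₂ g) hαg
  obtain ⟨rb, hrb⟩ := pow_mul_redPair_mem_of_zeros G₁ G₂ hx₁ hx₂ hD (β (g : FM)) (d.beta_mem₁ g)
    (d.beta_mem₂ g) hβg
  refine ⟨max ra rb, fun m hm => ⟨?_, ?_⟩⟩
  · have := hra m ((le_max_left _ _).trans hm)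
    rwa [d.redPair_alpha] at this
  · have := hrb m ((le_max_right _ _).trans hm)
    rwa [d.redPair_beta] at this

variable [HasPrincipalDivisors L FM] [HasPrincipalDivisors k κ] [Infinite k]

/-- **(LS0), chart `x ≠ ∞`, two-map form.** -/
theorem ls02 (H : Hyp GM gL gk) (d : PairDict2 GM G₁ G₂ α β φ ψ)
    (u : GM.O) (hu : GM.red u ≠ 0)
    {Du : Divisor L FM} {Dy : Divisor k κ} (hDu : IsPoleDiv ((u : GM.O) : FM) Du)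
    (hDy : IsPoleDiv (GM.red u) Dy) (hdeg : Divisor.degree Du ≤ Divisor.degree Dy)
    (hpos : 0 < Divisor.degree Du)
    {x : FL} {D : Divisor L FL} (hD : IsPoleDiv x D)
    (hα : ∀ g : FM, (∀ P' : Place L FM, 0 ≤ P'.ord ((u : GM.O) : FM) → 0 ≤ P'.ord g) →
      ∀ P : Place L FL, D P = 0 → 0 ≤ P.ord (α g))
    (hβ : ∀ g : FM, (∀ P' : Place L FM, 0 ≤ P'.ord ((u : GM.O) : FM) → 0 ≤ P'.ord g) →
      ∀ P : Place L FL, D P = 0 → 0 ≤ P.ord (β g))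
    (y : κ) (hy : ∀ Q : Place k κ, 0 ≤ Q.ord (GM.red u) → 0 ≤ Q.ord y) :
    ∃ r₀ : ℕ, ∀ m : ℕ, r₀ ≤ m →
      (y, ψ y) ∈ redSpace₂ G₁ G₂ (m • D) ∧ (φ y, y) ∈ redSpace₂ G₁ G₂ (m • D) := by
  obtain ⟨g, hgy, hg⟩ := exists_lift_of_poles H u hu hDu hDy hdeg hpos y
    (fun Q hQ => Or.inr (hy Q hQ))
  have hg' : ∀ P' : Place L FM, 0 ≤ P'.ord ((u : GM.O) : FM) → 0 ≤ P'.ord ((g : GM.O) : FM) := by
    intro P' hP'
    rcases hg P' hP' with h | h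
    · rw [h, Place.ord_zero]
    · exact h
  have := ls0_of_lift2 d hD g (hα _ hg') (hβ _ hg')
  rwa [hgy] at this

/-- **(LS1), chart `x ≠ 0`, two-map form.** -/
theorem ls12 (H : Hyp GM gL gk) (d : PairDict2 GM G₁ G₂ α β φ ψ)
    (u : GM.O) (hu : GM.red u ≠ 0)
    {Zu : Divisor L FM} {Zy : Divisor k κ} (hZu : IsPoleDiv (((u : GM.O) : FM)⁻¹) Zu)
    (hZy : IsPoleDiv (GM.red u)⁻¹ Zy) (hdeg : Divisor.degree Zu ≤ Divisor.degree Zy)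
    (hpos : 0 < Divisor.degree Zu)
    {x : FL} (hx₁ : x ∈ G₁.O) (hx₂ : x ∈ G₂.O) {D : Divisor L FL} (hD : IsPoleDiv x D)
    (hα : ∀ g : FM, (∀ P' : Place L FM, P'.ord ((u : GM.O) : FM) ≤ 0 → 0 ≤ P'.ord g) →
      ∀ P : Place L FL, P.ord x ≤ 0 → 0 ≤ P.ord (α g))
    (hβ : ∀ g : FM, (∀ P' : Place L FM, P'.ord ((u : GM.O) : FM) ≤ 0 → 0 ≤ P'.ord g) →
      ∀ P : Place L FL, P.ord x ≤ 0 → 0 ≤ P.ord (β g))
    (y : κ) (hy : ∀ Q : Place k κ, Q.ord (GM.red u) ≤ 0 → 0 ≤ Q.ord y) :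
    ∃ r₀ : ℕ, ∀ m : ℕ, r₀ ≤ m →
      (G₁.red ⟨x, hx₁⟩ ^ m * y, G₂.red ⟨x, hx₂⟩ ^ m * ψ y) ∈ redSpace₂ G₁ G₂ (m • D) ∧
      (G₁.red ⟨x, hx₁⟩ ^ m * φ y, G₂.red ⟨x, hx₂⟩ ^ m * y) ∈ redSpace₂ G₁ G₂ (m • D) := by
  obtain ⟨g, hgy, hg⟩ := exists_lift_of_zeros H u hu hZu hZy hdeg hpos y
    (fun Q hQ => Or.inr (hy Q hQ))
  have hg' : ∀ P' : Place L FM, P'.ord ((u : GM.O) : FM) ≤ 0 → 0 ≤ P'.ord ((g : GM.O) : FM) := by
    intro P' hP'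
    rcases hg P' hP' with h | h
    · rw [h, Place.ord_zero]
    · exact h
  have := ls1_of_lift2 d hx₁ hx₂ hD g (hα _ hg') (hβ _ hg')
  rwa [hgy] at this

/-- **(LS0)**, two-map form, in the shape `regOff` / `Rbar0` of `S34/Euler/Chart`. -/
theorem LS02 (H : Hyp GM gL gk) (d : PairDict2 GM G₁ G₂ α β φ ψ)
    (u : GM.O) (hu : GM.red u ≠ 0)
    {Du : Divisor L FM} {Dy : Divisor k κ} (hDu : IsPoleDiv ((u : GM.O) : FM) Du)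
    (hDy : IsPoleDiv (GM.red u) Dy) (hdeg : Divisor.degree Du ≤ Divisor.degree Dy)
    (hpos : 0 < Divisor.degree Du)
    {x : FL} {D : Divisor L FL} (hD : IsPoleDiv x D)
    (hα : ∀ g : FM, (∀ P' : Place L FM, 0 ≤ P'.ord ((u : GM.O) : FM) → 0 ≤ P'.ord g) →
      ∀ P : Place L FL, D P = 0 → 0 ≤ P.ord (α g))
    (hβ : ∀ g : FM, (∀ P' : Place L FM, 0 ≤ P'.ord ((u : GM.O) : FM) → 0 ≤ P'.ord g) →
      ∀ P : Place L FL, D P = 0 → 0 ≤ P.ord (β g)) :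
    ∀ f ∈ regOff {v : Place k κ | v.ord (GM.red u) < 0},
      (f, ψ f) ∈ Rbar0 G₁ G₂ hD.nonneg ∧ (φ f, f) ∈ Rbar0 G₁ G₂ hD.nonneg := by
  intro f hf
  obtain ⟨r₀, hr₀⟩ := ls02 H d u hu hDu hDy hdeg hpos hD hα hβ f
    (fun Q hQ => ord_nonneg_of_mem_regOff hf (by simpa using hQ))
  exact ⟨(mem_Rbar0_iff_redSpace₂ G₁ G₂ hD.nonneg).mpr ⟨r₀, (hr₀ r₀ le_rfl).1⟩,
    (mem_Rbar0_iff_redSpace₂ G₁ G₂ hD.nonneg).mpr ⟨r₀, (hr₀ r₀ le_rfl).2⟩⟩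

/-- **(LS1)**, two-map form, in the shape `regOff` / `Rbar1` of `S34/Euler/Chart`. -/
theorem LS12 (H : Hyp GM gL gk) (d : PairDict2 GM G₁ G₂ α β φ ψ)
    (u : GM.O) (hu : GM.red u ≠ 0)
    {Zu : Divisor L FM} {Zy : Divisor k κ} (hZu : IsPoleDiv (((u : GM.O) : FM)⁻¹) Zu)
    (hZy : IsPoleDiv (GM.red u)⁻¹ Zy) (hdeg : Divisor.degree Zu ≤ Divisor.degree Zy)
    (hpos : 0 < Divisor.degree Zu)
    {x : FL} (hx₁ : x ∈ G₁.O) (hx₂ : x ∈ G₂.O) {D : Divisor L FL} (hD : IsPoleDiv x D)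
    (hα : ∀ g : FM, (∀ P' : Place L FM, P'.ord ((u : GM.O) : FM) ≤ 0 → 0 ≤ P'.ord g) →
      ∀ P : Place L FL, P.ord x ≤ 0 → 0 ≤ P.ord (α g))
    (hβ : ∀ g : FM, (∀ P' : Place L FM, P'.ord ((u : GM.O) : FM) ≤ 0 → 0 ≤ P'.ord g) →
      ∀ P : Place L FL, P.ord x ≤ 0 → 0 ≤ P.ord (β g)) :
    ∀ f ∈ regOff {v : Place k κ | 0 < v.ord (GM.red u)},
      (f, ψ f) ∈ Rbar1 G₁ G₂ hx₁ hx₂ hD ∧ (φ f, f) ∈ Rbar1 G₁ G₂ hx₁ hx₂ hD := by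
  intro f hf
  obtain ⟨r₀, hr₀⟩ := ls12 H d u hu hZu hZy hdeg hpos hx₁ hx₂ hD hα hβ f
    (fun Q hQ => ord_nonneg_of_mem_regOff hf (by simpa using hQ))
  exact ⟨(mem_Rbar1_iff_redSpace₂ G₁ G₂ hx₁ hx₂ hD).mpr ⟨r₀, (hr₀ r₀ le_rfl).1⟩,
    (mem_Rbar1_iff_redSpace₂ G₁ G₂ hx₁ hx₂ hD).mpr ⟨r₀, (hr₀ r₀ le_rfl).2⟩⟩

end Fermat.Agent.S43.LG1.C1.Euler.ChartLiftTw
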