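/-
S43 (row 37), PROJECT R, block `LG1`, brick `C1` (twin of `S34` at `X₁(N)`), file `Euler/ChartLiftX1`
(helper23): TWO-MAP twin of main's `S34/Euler/ChartLiftX0` (without its holomorphy-ring forms, which
nobody consumes), on helper5's dictionary `C1/PairDictSwapTw.PairDict2`:
`(red₁, red₂)(α g) = (ḡ, ψ ḡ)`, `(red₁, red₂)(β g) = (φ ḡ, ḡ)`.

# Euler characteristic: (LS0) and (LS1) over `X₁(N)`

The level-`N` side of main's `S34/Euler/ChartLift` instantiated at `F_N = ℚ̄(X₁(N)) = F1Bar N`,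
`GN = Bases1.gaussDatumIgusa h hr hrN hA` (`h : IgusaDeg N` any proof), `u = j = jgen1 N`,
`κ(X₁(N)) = F1C N κ`, `κ = κ(A)`.  The level-`Nr` side stays abstract: any function field `FL / ℚ̄`
with two Gauss data `G₁ G₂` with residue function field `F1C N κ`, two embeddings
`α β : F1Bar N →+* FL` with restriction data `ra`, `rb` (`Generic.Compat.Restr`) and the reduction
dictionary `PairDict2` (two maps `φ`, `ψ`).

* `ls0_X1` : for `ḡ` regular off the cusps (the poles of `j̄`): `(ḡ, ψ ḡ)`, `(φ ḡ, ḡ)` lie in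
  `redSpace₂ G₁ G₂ (r D)` for all large `r`, `D = (x)_∞`, provided `α j`, `β j` are regular off the
  poles of `x`;
* `ls1_X1` : for `ḡ` regular off the zeros of `j̄`: `x̄ ^ r (ḡ, ψ ḡ)`, `x̄ ^ r (φ ḡ, ḡ)` lie in
  `redSpace₂ G₁ G₂ (r D)` for all large `r`, provided `α j`, `β j` have no zeros off the zeros of `x`;
* `ls0_X1_mul`, `ls1_X1_mul` : the same for `x = α j · β j`, from the single hypothesis that `α j`
  and `β j` have the same poles; `red₁_x`, `red₂_x`;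
* `LS0_X1`, `LS1_X1` : the two-map forms of the hypotheses (LS0), (LS1) of `Euler.Chart.genus_le_of_charts`
  (`regOff`, `Rbar0`, `Rbar1`) for `x = α j · β j`.
-/
import Mathlib
import Fermat.Agent.S43.LG1.C1.Euler.ChartLiftTw
import Fermat.Agent.S43.LG1.C1.LevelMSurjX1

set_option autoImplicit false
set_option linter.unusedSectionVars false

noncomputable section

namespace Fermat.Agent.S43.LG1.C1.Euler.ChartLiftX1

open AlgebraicCurve ModularCurve IsLocalRing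
open Fermat.Agent.S18.NonSpecial Fermat.Agent.S37.Deuring.Core
open Fermat.Agent.S48.B.Defs.Model
open Fermat.Agent.S48.B.B1.Seams (jgen1)
open Fermat.Agent.S48.B.Red.Seams (jC IgusaDeg)
open Fermat.Agent.S48.B.Red.Bases1
open Fermat.Agent.S43.LG1.C1.LevelMSurjX1 Fermat.Agent.S43.LG1.C1.PairDictSwapTw
  Fermat.Agent.S43.LG1.C1.Euler.ChartLiftTw
open Fermat.Agent.S34.Euler.RedPair Fermat.Agent.S34.Euler.ChartLift
open Fermat.Agent.S34.Generic.Compat Fermat.Agent.S34.Euler.Places Fermat.Agent.S34.Euler.Chart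

local notation "Kb" => AlgebraicClosure ℚ

set_option synthInstance.maxHeartbeats 400000

attribute [local instance] Fermat.Agent.S43.LG1.C1.LevelMSurjX1.algKappa

/-- the residue field of a valuation ring of `ℚ̄` is algebraically closed (hence infinite) -/
local instance isAlgClosedRes (A : ValuationSubring Kb) : IsAlgClosed (ResidueField ↥A) :=
  Fermat.Agent.S18.ResidueBasics.isAlgClosed_residueField A

variable {r : ℕ} {N : ℕ} [NeZero N] {A : ValuationSubring Kb}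
variable (h : IgusaDeg N) (hr : r.Prime) (hrN : ¬ r ∣ N) (hA : A.LiesOverPrime r)
variable [HasPrincipalDivisors Kb ↥(F1Bar N)]
variable [HasPrincipalDivisors (ResidueField ↥A) ↥(F1C N (ResidueField ↥A))]
variable {gL gk : ℕ} (H : Hyp (gaussDatumIgusa h hr hrN hA) gL gk)
variable {FL : Type*} [Field FL] [Algebra Kb FL] [HasPrincipalDivisors Kb FL]
variable {G₁ G₂ : GaussDatum A (residue ↥A) FL ↥(F1C N (ResidueField ↥A))}
variable {α β : ↥(F1Bar N) →+* FL}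
variable {φ ψ : ↥(F1C N (ResidueField ↥A)) →
  ↥(F1C N (ResidueField ↥A))}

include H in
/-- **(LS0) over `X₁(N)`**: `x` any function of `FL` with pole divisor `D` such that `α j`, `β j`
are regular off the poles of `x`. -/
theorem ls0_X1 (d : PairDict2 (gaussDatumIgusa h hr hrN hA) G₁ G₂ α β φ ψ)
    (ra : Restr Kb α) (rb : Restr Kb β) {x : FL} {D : Divisor Kb FL} (hD : IsPoleDiv x D)
    (hxa : ∀ P : Place Kb FL, D P = 0 → 0 ≤ P.ord (α (jgen1 N)))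
    (hxb : ∀ P : Place Kb FL, D P = 0 → 0 ≤ P.ord (β (jgen1 N)))
    (y : ↥(F1C N (ResidueField ↥A)))
    (hy : ∀ Q : Place (ResidueField ↥A) ↥(F1C N (ResidueField ↥A)),
      0 ≤ Q.ord (jC N (ResidueField ↥A)) → 0 ≤ Q.ord y) :
    ∃ r₀ : ℕ, ∀ m : ℕ, r₀ ≤ m →
      (y, ψ y) ∈ redSpace₂ G₁ G₂ (m • D) ∧ (φ y, y) ∈ redSpace₂ G₁ G₂ (m • D) := by
  obtain ⟨g, hgy, hg⟩ := exists_lift_off_cusps1 h hr hrN hA H y
    (fun Q hQ => Or.inr (hy Q hQ))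
  have hg' : ∀ P' : Place Kb ↥(F1Bar N), 0 ≤ P'.ord (jgen1 N) →
      0 ≤ P'.ord ((g : ↥(gaussDatumIgusa h hr hrN hA).O) : ↥(F1Bar N)) := by
    intro P' hP'
    rcases hg P' hP' with h | h
    · rw [h, Place.ord_zero]
    · exact h
  have := ls0_of_lift2 d hD g (regular_of_restr_poles ra (jgen1 N) hxa _ hg')
    (regular_of_restr_poles rb (jgen1 N) hxb _ hg')
  rwa [hgy] at this

include H in
/-- **(LS1) over `X₁(N)`**: `x ∈ O₁ ∩ O₂` with pole divisor `D` such that the zeros of `α j`, `β j`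
are zeros of `x`. -/
theorem ls1_X1 (d : PairDict2 (gaussDatumIgusa h hr hrN hA) G₁ G₂ α β φ ψ)
    (ra : Restr Kb α) (rb : Restr Kb β) {x : FL} (hx₁ : x ∈ G₁.O) (hx₂ : x ∈ G₂.O)
    {D : Divisor Kb FL} (hD : IsPoleDiv x D)
    (hxa : ∀ P : Place Kb FL, P.ord x ≤ 0 → P.ord (α (jgen1 N)) ≤ 0)
    (hxb : ∀ P : Place Kb FL, P.ord x ≤ 0 → P.ord (β (jgen1 N)) ≤ 0)
    (y : ↥(F1C N (ResidueField ↥A)))
    (hy : ∀ Q : Place (ResidueField ↥A) ↥(F1C N (ResidueField ↥A)),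
      Q.ord (jC N (ResidueField ↥A)) ≤ 0 → 0 ≤ Q.ord y) :
    ∃ r₀ : ℕ, ∀ m : ℕ, r₀ ≤ m →
      (G₁.red ⟨x, hx₁⟩ ^ m * y, G₂.red ⟨x, hx₂⟩ ^ m * ψ y) ∈ redSpace₂ G₁ G₂ (m • D) ∧
      (G₁.red ⟨x, hx₁⟩ ^ m * φ y, G₂.red ⟨x, hx₂⟩ ^ m * y) ∈ redSpace₂ G₁ G₂ (m • D) := by
  obtain ⟨g, hgy, hg⟩ := exists_lift_off_zeros1 h hr hrN hA H y
    (fun Q hQ => Or.inr (hy Q hQ))
  have hg' : ∀ P' : Place Kb ↥(F1Bar N), P'.ord (jgen1 N) ≤ 0 →
      0 ≤ P'.ord ((g : ↥(gaussDatumIgusa h hr hrN hA).O) : ↥(F1Bar N)) := by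
    intro P' hP'
    rcases hg P' hP' with h | h
    · rw [h, Place.ord_zero]
    · exact h
  have := ls1_of_lift2 d hx₁ hx₂ hD g (regular_of_restr_zeros ra (jgen1 N) hxa _ hg')
    (regular_of_restr_zeros rb (jgen1 N) hxb _ hg')
  rwa [hgy] at this

/-! ### `x = α j · β j` -/

theorem jgen_ne_zero : (jgen1 N : ↥(F1Bar N)) ≠ 0 := fun h =>
  (isFF_jgen1 N).transcendental (h ▸ isAlgebraic_zero)

include H in
/-- **(LS0) for `x = α j · β j`**, when `α j` and `β j` have the same poles. -/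
theorem ls0_X1_mul (d : PairDict2 (gaussDatumIgusa h hr hrN hA) G₁ G₂ α β φ ψ)
    (ra : Restr Kb α) (rb : Restr Kb β) {D : Divisor Kb FL}
    (hD : IsPoleDiv (α (jgen1 N) * β (jgen1 N)) D)
    (hab : ∀ P : Place Kb FL, P.ord (α (jgen1 N)) < 0 ↔ P.ord (β (jgen1 N)) < 0)
    (y : ↥(F1C N (ResidueField ↥A)))
    (hy : ∀ Q : Place (ResidueField ↥A) ↥(F1C N (ResidueField ↥A)),
      0 ≤ Q.ord (jC N (ResidueField ↥A)) → 0 ≤ Q.ord y) :
    ∃ r₀ : ℕ, ∀ m : ℕ, r₀ ≤ m →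
      (y, ψ y) ∈ redSpace₂ G₁ G₂ (m • D) ∧ (φ y, y) ∈ redSpace₂ G₁ G₂ (m • D) := by
  have ha : α (jgen1 N) ≠ 0 := (map_ne_zero α).mpr jgen_ne_zero
  have hb : β (jgen1 N) ≠ 0 := (map_ne_zero β).mpr jgen_ne_zero
  exact ls0_X1 h hr hrN hA H d ra rb hD
    (fun P hP => (ord_nonneg_of_poleDiv_mul hD hab ha hb P hP).1)
    (fun P hP => (ord_nonneg_of_poleDiv_mul hD hab ha hb P hP).2) y hy

include H in
/-- **(LS1) for `x = α j · β j`**, when `α j` and `β j` have the same poles. -/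
theorem ls1_X1_mul (d : PairDict2 (gaussDatumIgusa h hr hrN hA) G₁ G₂ α β φ ψ)
    (ra : Restr Kb α) (rb : Restr Kb β) {D : Divisor Kb FL}
    (hD : IsPoleDiv (α (jgen1 N) * β (jgen1 N)) D)
    (hab : ∀ P : Place Kb FL, P.ord (α (jgen1 N)) < 0 ↔ P.ord (β (jgen1 N)) < 0)
    (y : ↥(F1C N (ResidueField ↥A)))
    (hy : ∀ Q : Place (ResidueField ↥A) ↥(F1C N (ResidueField ↥A)),
      Q.ord (jC N (ResidueField ↥A)) ≤ 0 → 0 ≤ Q.ord y) :
    ∃ r₀ : ℕ, ∀ m : ℕ, r₀ ≤ m →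
      (G₁.red ⟨_, d.mul_mem₁ (jO1 h hr hrN hA)⟩ ^ m * y,
        G₂.red ⟨_, d.mul_mem₂ (jO1 h hr hrN hA)⟩ ^ m * ψ y)
          ∈ redSpace₂ G₁ G₂ (m • D) ∧
      (G₁.red ⟨_, d.mul_mem₁ (jO1 h hr hrN hA)⟩ ^ m * φ y,
        G₂.red ⟨_, d.mul_mem₂ (jO1 h hr hrN hA)⟩ ^ m * y)
          ∈ redSpace₂ G₁ G₂ (m • D) := by
  have ha : α (jgen1 N) ≠ 0 := (map_ne_zero α).mpr jgen_ne_zero
  have hb : β (jgen1 N) ≠ 0 := (map_ne_zero β).mpr jgen_ne_zero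
  exact ls1_X1 h hr hrN hA H d ra rb (d.mul_mem₁ (jO1 h hr hrN hA))
    (d.mul_mem₂ (jO1 h hr hrN hA)) hD
    (fun P hP => (ord_nonpos_of_ord_mul_nonpos hab ha hb P hP).1)
    (fun P hP => (ord_nonpos_of_ord_mul_nonpos hab ha hb P hP).2) y hy

/-- the reductions of `x = α j · β j`: `x̄₁ = j̄ · φ j̄` -/
theorem red₁_x (d : PairDict2 (gaussDatumIgusa h hr hrN hA) G₁ G₂ α β φ ψ) :
    G₁.red ⟨_, d.mul_mem₁ (jO1 h hr hrN hA)⟩ =
      jC N (ResidueField ↥A) * φ (jC N (ResidueField ↥A)) := by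
  rw [d.red₁_mul, red_jO1]

/-- the reductions of `x = α j · β j`: `x̄₂ = ψ j̄ · j̄` -/
theorem red₂_x (d : PairDict2 (gaussDatumIgusa h hr hrN hA) G₁ G₂ α β φ ψ) :
    G₂.red ⟨_, d.mul_mem₂ (jO1 h hr hrN hA)⟩ =
      ψ (jC N (ResidueField ↥A)) * jC N (ResidueField ↥A) := by
  rw [d.red₂_mul, red_jO1]

/-! ### the two-map forms of the hypotheses (LS0), (LS1) of `Euler.Chart.genus_le_of_charts` -/

include H in
/-- **(LS0) at `X₁(N)`**, literally: `P₀` = the poles of `j̄`. -/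
theorem LS0_X1 (d : PairDict2 (gaussDatumIgusa h hr hrN hA) G₁ G₂ α β φ ψ)
    (ra : Restr Kb α) (rb : Restr Kb β) {D : Divisor Kb FL}
    (hD : IsPoleDiv (α (jgen1 N) * β (jgen1 N)) D)
    (hab : ∀ P : Place Kb FL, P.ord (α (jgen1 N)) < 0 ↔ P.ord (β (jgen1 N)) < 0) :
    ∀ g ∈ regOff {v : Place (ResidueField ↥A) ↥(F1C N (ResidueField ↥A)) |
        v.ord (jC N (ResidueField ↥A)) < 0},
      (g, ψ g) ∈ Rbar0 G₁ G₂ hD.nonneg ∧ (φ g, g) ∈ Rbar0 G₁ G₂ hD.nonneg := by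
  intro g hg
  obtain ⟨r₀, hr₀⟩ := ls0_X1_mul h hr hrN hA H d ra rb hD hab g
    (fun Q hQ => ord_nonneg_of_mem_regOff hg (by simpa using hQ))
  exact ⟨(mem_Rbar0_iff_redSpace₂ G₁ G₂ hD.nonneg).mpr ⟨r₀, (hr₀ r₀ le_rfl).1⟩,
    (mem_Rbar0_iff_redSpace₂ G₁ G₂ hD.nonneg).mpr ⟨r₀, (hr₀ r₀ le_rfl).2⟩⟩

include H in
/-- **(LS1) at `X₁(N)`**, literally: `P₁` = the zeros of `j̄`. -/
theorem LS1_X1 (d : PairDict2 (gaussDatumIgusa h hr hrN hA) G₁ G₂ α β φ ψ)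
    (ra : Restr Kb α) (rb : Restr Kb β) {D : Divisor Kb FL}
    (hD : IsPoleDiv (α (jgen1 N) * β (jgen1 N)) D)
    (hab : ∀ P : Place Kb FL, P.ord (α (jgen1 N)) < 0 ↔ P.ord (β (jgen1 N)) < 0) :
    ∀ g ∈ regOff {v : Place (ResidueField ↥A) ↥(F1C N (ResidueField ↥A)) |
        0 < v.ord (jC N (ResidueField ↥A))},
      (g, ψ g) ∈ Rbar1 G₁ G₂ (d.mul_mem₁ (jO1 h hr hrN hA))
          (d.mul_mem₂ (jO1 h hr hrN hA)) hD ∧
      (φ g, g) ∈ Rbar1 G₁ G₂ (d.mul_mem₁ (jO1 h hr hrN hA))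
          (d.mul_mem₂ (jO1 h hr hrN hA)) hD := by
  intro g hg
  obtain ⟨r₀, hr₀⟩ := ls1_X1_mul h hr hrN hA H d ra rb hD hab g
    (fun Q hQ => ord_nonneg_of_mem_regOff hg (by simpa using hQ))
  exact ⟨(mem_Rbar1_iff_redSpace₂ G₁ G₂ _ _ hD).mpr ⟨r₀, (hr₀ r₀ le_rfl).1⟩,
    (mem_Rbar1_iff_redSpace₂ G₁ G₂ _ _ hD).mpr ⟨r₀, (hr₀ r₀ le_rfl).2⟩⟩

end Fermat.Agent.S43.LG1.C1.Euler.ChartLiftX1
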